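import Fermat.Agent.S55.B.BT.AlphaAbs
import Fermat.Agent.S55.G.BridgeVal
import Fermat.Agent.S55.G.BridgeSplit
import Fermat.Agent.S55.G.BridgeModel
import Fermat.Agent.S55.G.BridgeGal

/-!
# S55 / [B] (E2): the element `α`, in the `Fix`-language
TASK S55/B-BT-Alpha.

PROOF.  `exists_model N N1 ..`: `K, L, φ` with `fixG φ = N1`, `fixG φK = N` (`φK = φ.comp (algebraMap K L)`).
`b = φK b₀` (`Fix_fixG`, `mem_rangeNF`).  `T = {v : Pl K | ∃ l ∈ S, ∃ g, IsAt φK v l g}`.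
(a) if `IsAt φ w l g` and `l ∉ S` then `w ∉ above K L T`  [`v` below `w`: `IsAt.comp`; if `v ∈ T` then
    `IsAt.samePlace` gives `l ∈ S`; `under_unique`];  conversely if `w` is above `v ∉ T` and `IsAt φ w l g`
    then `l ∉ S`.
(b) `IsAt φ w l g` ⇒ (`w(x) = w(y)^n ↔ nrmg l g (φ x) = nrmg l g (φ y)^n` for `x, y ≠ 0`)   [definition of `IsAt`;
    `c^s = c^t ↔ s = t` for `0 < c < 1`; `WithZero.log`].
(c) hypothesis `hb` of `exists_alpha_abs`: `v ∉ T` nonsplit, `w` above `v`, `(l,g)` with `IsAt φ w l g` (`exists_isAt`);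
    `nonsplit_iff` + `hloc`: `b = ∏_{i<p} t'^i c₀`, `t' ∈ Dg l g`, `c₀ ∈ Fix (Dg l g ⊓ N1)`; `nrmg_map_of_mem_Dg`: `|b| = |c₀|^p`;
    `exists_near φ` (ε = 1): `y ∈ L^×` with `|c₀/φ y - 1| < 1`, so `|c₀| = |φ y|`.
(d) translate the conclusion with (a), (b), `exists_isAt'` and `map_norm` (`φ (N y) = ∏ t^i φ y`).
-/

set_option autoImplicit false

open IsDedekindDomain NumberField Module

namespace Fermat.Agent.S55.G

open Fermat.Agent.S55.Places

noncomputable section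

set_option linter.unusedSectionVars false

variable {p : ℕ} [Fact p.Prime]

theorem IsAt.val_eq_pow_iff {L : Type} [Field L] [NumberField L] {φ : L →+* Qbar} {w : Pl L}
    {l : Nat.Primes} {g : GQ} (h : IsAt φ w l g) {x y : L} (hx : x ≠ 0) (hy : y ≠ 0) (n : ℕ) :
    w.valuation L x = w.valuation L y ^ n ↔ nrmg l g (φ x) = nrmg l g (φ y) ^ n := by
  obtain ⟨c, hc0, hc1, hc⟩ := h
  have hvx : w.valuation L x ≠ 0 := by rwa [Ne, map_eq_zero]
  have hvy : w.valuation L y ≠ 0 := by rwa [Ne, map_eq_zero]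
  have e : (c ^ (-WithZero.log (w.valuation L y))) ^ n
      = c ^ (-WithZero.log (w.valuation L y) * (n : ℤ)) := by
    rw [zpow_mul, zpow_natCast]
  rw [hc x hx, hc y hy, e, (zpow_right_injective₀ hc0 hc1.ne).eq_iff]
  constructor
  · intro h
    rw [h, WithZero.log_pow, nsmul_eq_mul]
    ring
  · intro h
    rw [← WithZero.exp_log hvx, ← WithZero.exp_log (pow_ne_zero n hvy), WithZero.log_pow,
      nsmul_eq_mul]
    congr 1
    linarith

/-- `|-x| = |x|`. -/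
theorem Alpha_nrmg_neg (l : Nat.Primes) (g : GQ) (x : Qbar) : nrmg l g (-x) = nrmg l g x := by
  have h1 : nrmg l g (-1) * nrmg l g (-1) = 1 := by
    rw [← nrmg_mul]; simp [nrmg_one]
  have h0 := nrmg_nonneg l g (-1)
  have h2 : nrmg l g (-1) = 1 := by nlinarith
  have e : -x = (-1) * x := by ring
  rw [e, nrmg_mul, h2, one_mul]

/-- `|u - 1| < 1 ⟹ |u| = 1`. -/
theorem Alpha_nrmg_eq_one (l : Nat.Primes) (g : GQ) {u : Qbar} (hu : nrmg l g (u - 1) < 1) :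
    nrmg l g u = 1 := by
  apply le_antisymm
  · have e : u = (u - 1) + 1 := by ring
    rw [e]
    refine (nrmg_add_le_max l g _ _).trans (max_le hu.le ?_)
    rw [nrmg_one]
  · by_contra hlt
    rw [not_le] at hlt
    have e : (1 : Qbar) = u + -(u - 1) := by ring
    have h1 := nrmg_add_le_max l g u (-(u - 1))
    rw [← e, nrmg_one, Alpha_nrmg_neg] at h1
    exact absurd h1 (not_le.mpr (max_lt hlt hu))

theorem Alpha_nrmg_prod (l : Nat.Primes) (g : GQ) {ι : Type*} (s : Finset ι) (f : ι → Qbar) :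
    nrmg l g (∏ i ∈ s, f i) = ∏ i ∈ s, nrmg l g (f i) := by
  classical
  induction s using Finset.induction_on with
  | empty => rw [Finset.prod_empty, Finset.prod_empty, nrmg_one]
  | insert a s ha ih => rw [Finset.prod_insert ha, Finset.prod_insert ha, nrmg_mul, ih]

theorem exists_alpha (S : Finset Nat.Primes) (N N1 : Subgroup GQ) (hN : Lall.IsOpen N)
    (hN1 : IsOpenIn N N1) (hn : (N1.subgroupOf N).Normal) (hi : (N1.subgroupOf N).index = p)
    (hμ : N ≤ (ExtCitation.cycloChar p).ker) (b : Qbar) (hb : b ∈ Places.Fix N) (hb0 : b ≠ 0)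
    (hloc : ∀ (l : Nat.Primes) (g : GQ), l ∉ S → ¬ (Dg l g ⊓ N ≤ N1) →
      IsNormFrom p (Dg l g ⊓ N) (Dg l g ⊓ N1) b)
    (t : GQ) (ht : t ∈ N) (ht1 : t ∉ N1) :
    ∃ (a N0 : ℕ) (α : Qbar), N0 % p = 1 ∧ α ∈ Places.Fix N1 ∧ α ≠ 0 ∧
      (∀ l : Nat.Primes, l ∉ S → ∀ g : GQ, ∃ c ∈ Places.Fix N1, c ≠ 0 ∧
        nrmg l g α = nrmg l g c ^ (p ^ a)) ∧
      (∀ l : Nat.Primes, l ∉ S → ∀ g : GQ,
        nrmg l g (∏ i ∈ Finset.range p, (t ^ i) α) = nrmg l g b ^ (N0 * p ^ a)) := by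
  obtain ⟨K, L, _, _, _, _, _, _, φ, hdeg, hφ1, hφ, -⟩ := exists_model N N1 hN hN1 hn hi hμ
  subst hφ1
  subst hφ
  rw [Fix_fixG, mem_rangeNF] at hb
  obtain ⟨b₀, rfl⟩ := hb
  have hb₀ : b₀ ≠ 0 := by
    rintro rfl
    exact hb0 (map_zero _)
  have hbL : algebraMap K L b₀ ≠ 0 := by
    rwa [Ne, map_eq_zero]
  let T : Set (Pl K) := {v | ∃ l ∈ S, ∃ g, IsAt (φ.comp (algebraMap K L)) v l g}
  -- (a)
  have ha1 : ∀ (w : Pl L) (l : Nat.Primes) (g : GQ), IsAt φ w l g → l ∉ S → w ∉ above K L T := by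
    rintro w l g hat hl ⟨v, ⟨l', hl', g', hv'⟩, hwv⟩
    have h1 : IsAt (φ.comp (algebraMap K L)) v l g := IsAt.comp hwv hat
    have h2 := (IsAt.samePlace _ h1 hv').1
    simp only at h2
    exact hl (h2 ▸ hl')
  have ha2 : ∀ (v : Pl K) (w : Pl L) (l : Nat.Primes) (g : GQ), v ∉ T →
      w.asIdeal.LiesOver v.asIdeal → IsAt φ w l g → l ∉ S := by
    intro v w l g hv hwv hat hl
    exact hv ⟨l, hl, g, IsAt.comp hwv hat⟩
  -- (c)
  have hc : ∀ v ∉ T, Nonsplit K L v → ∀ w : Pl L, w.asIdeal.LiesOver v.asIdeal →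
      ∃ c : Lˣ, w.valuation L (algebraMap K L ((Units.mk0 b₀ hb₀ : Kˣ) : K))
        = w.valuation L (c : L) ^ p := by
    intro v hv hns w hwv
    obtain ⟨l, g, hat⟩ := exists_isAt φ w
    have hl : l ∉ S := ha2 v w l g hv hwv hat
    obtain ⟨t', ht', -, c₀, hc₀, hc₀0, hprod⟩ := hloc l g hl ((nonsplit_iff hdeg hwv hat).1 hns)
    have hnb : nrmg l g (φ (algebraMap K L b₀)) = nrmg l g c₀ ^ p := by
      have e : φ (algebraMap K L b₀) = ∏ i ∈ Finset.range p, (t' ^ i) c₀ := hprod.symm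
      rw [e, Alpha_nrmg_prod]
      rw [Finset.prod_congr rfl (fun i _ =>
        nrmg_map_of_mem_Dg l g ((Dg l g).pow_mem ht'.1 i) c₀)]
      rw [Finset.prod_const, Finset.card_range]
    obtain ⟨y, hy0, hy⟩ := exists_near l g φ hc₀ hc₀0 one_pos
    have hφy : φ y ≠ 0 := by rwa [Ne, map_eq_zero]
    have h1 := Alpha_nrmg_eq_one l g hy
    have h2 : nrmg l g c₀ = nrmg l g (φ y) := by
      have e : c₀ = c₀ / φ y * φ y := by field_simp
      rw [e, nrmg_mul, h1, one_mul]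
    refine ⟨Units.mk0 y hy0, ?_⟩
    rw [Units.val_mk0, Units.val_mk0, hat.val_eq_pow_iff hbL hy0, hnb, h2]
  obtain ⟨a, N0, α, hN0, h1, h2⟩ := exists_alpha_abs K L hdeg T (Units.mk0 b₀ hb₀) hc
  have hα0 : (α : L) ≠ 0 := α.ne_zero
  refine ⟨a, N0, φ (α : L), hN0, ?_, ?_, ?_, ?_⟩
  · rw [Fix_fixG, mem_rangeNF]
    exact ⟨_, rfl⟩
  · rwa [Ne, map_eq_zero]
  · intro l hl g
    obtain ⟨w, hw⟩ := exists_isAt' φ l g
    obtain ⟨c, hc'⟩ := h1 w (ha1 w l g hw hl)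
    refine ⟨φ (c : L), ?_, ?_, (hw.val_eq_pow_iff hα0 c.ne_zero _).1 hc'⟩
    · rw [Fix_fixG, mem_rangeNF]
      exact ⟨_, rfl⟩
    · rw [Ne, map_eq_zero]
      exact c.ne_zero
  · intro l hl g
    obtain ⟨w, hw⟩ := exists_isAt' φ l g
    have h3 := h2 w (ha1 w l g hw hl)
    rw [Units.val_mk0] at h3
    have hnorm : algebraMap K L (Algebra.norm K (α : L)) ≠ 0 := by
      rw [Ne, map_eq_zero, Algebra.norm_eq_zero_iff]
      exact hα0
    rw [← map_norm hdeg φ ht ht1 (α : L)]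
    exact (hw.val_eq_pow_iff hnorm hbL _).1 h3

end

end Fermat.Agent.S55.G
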