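import Mathlib

/-!
# S55 / [B] (E2): a combinatorial identity in `ℤ[ℤ/p]`
TASK S55/B-BT-CocComb.   (Mathlib only.)
-/

set_option autoImplicit false

namespace Fermat.Agent.S55

namespace CocComb

theorem sum_weight_succ {Q : Type} [AddCommGroup Q] (g : ℕ → Q) (n : ℕ) :
    ∑ j ∈ Finset.range (n + 1), (n + 1 - 1 - j) • g j =
      ∑ j ∈ Finset.range n, (n - 1 - j) • g j + ∑ j ∈ Finset.range n, g j := by
  rw [Finset.sum_range_succ, ← Finset.sum_add_distrib]
  have h0 : n + 1 - 1 - n = 0 := by omega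
  rw [h0, zero_smul, add_zero]
  refine Finset.sum_congr rfl fun j hj => ?_
  have hj' := Finset.mem_range.1 hj
  have h1 : n + 1 - 1 - j = (n - 1 - j) + 1 := by omega
  rw [h1, add_smul, one_smul]

/-- Abel summation. -/
theorem abel {Q : Type} [AddCommGroup Q] (g : ℕ → Q) (n : ℕ) :
    ∑ j ∈ Finset.range n, (n - 1 - j) • g (j + 1) + n • g 0 =
      ∑ j ∈ Finset.range n, (n - 1 - j) • g j + ∑ j ∈ Finset.range n, g j := by
  induction n with
  | zero => simp
  | succ n ih =>
    rw [sum_weight_succ g n, sum_weight_succ (fun j => g (j + 1)) n, add_smul, one_smul,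
      Finset.sum_range_succ' g n]
    have : ∑ j ∈ Finset.range n, (n - 1 - j) • g (j + 1) + ∑ j ∈ Finset.range n, g (j + 1) +
        (n • g 0 + g 0) = (∑ j ∈ Finset.range n, (n - 1 - j) • g (j + 1) + n • g 0) +
        (∑ j ∈ Finset.range n, g (j + 1) + g 0) := by abel
    rw [this, ih]

theorem sum_shift {Q : Type} [AddCommGroup Q] (p : ℕ) (f : ℕ → Q)
    (hf : ∀ i, f (i + p) = f i) (c : ℕ) :
    ∑ j ∈ Finset.range p, f (j + c) = ∑ j ∈ Finset.range p, f j := by
  induction c with
  | zero => simp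
  | succ c ih =>
    rw [← ih]
    have h1 := Finset.sum_range_succ (fun j => f (j + c)) p
    have h2 := Finset.sum_range_succ' (fun j => f (j + c)) p
    rw [h1] at h2
    have h3 : f (p + c) = f (0 + c) := by rw [add_comm p c, hf, zero_add]
    rw [h3] at h2
    have h4 := add_right_cancel h2
    rw [h4]
    refine Finset.sum_congr rfl fun j _ => ?_
    rw [add_right_comm, add_assoc]

end CocComb

/-- (COMB) `(s^c - 1) Γ = c T - p ∑_{i<c} s^i` in `ℤ[ℤ/p]`, `Γ = ∑_j (p-1-j) s^j`.
[induction on `c`: `F (c+1) - F c = T - p • f c` where `F c = ∑_{j<p} (p-1-j) • f (j+c)` (Abel summation,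
`Finset.sum_range_succ`, `Finset.sum_range_succ'`) and `∑_{j<p} f (j+c) = ∑_{j<p} f j` by periodicity.] -/
theorem comb_identity {Q : Type} [AddCommGroup Q] (p : ℕ) (hp : 0 < p) (f : ℕ → Q)
    (hf : ∀ i, f (i + p) = f i) (c : ℕ) :
    c • ∑ i ∈ Finset.range p, f i - p • ∑ i ∈ Finset.range c, f i
      + ∑ j ∈ Finset.range p, (p - 1 - j) • f j
      - ∑ j ∈ Finset.range p, (p - 1 - j) • f (j + c) = 0 := by
  induction c with
  | zero => simp
  | succ c ih =>
    have h1 := CocComb.abel (fun j => f (j + c)) p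
    simp only [zero_add] at h1
    rw [CocComb.sum_shift p f hf c] at h1
    have h2 : ∑ j ∈ Finset.range p, (p - 1 - j) • f (j + (c + 1)) =
        ∑ j ∈ Finset.range p, (p - 1 - j) • f (j + 1 + c) := by
      refine Finset.sum_congr rfl fun j _ => ?_
      rw [add_right_comm, add_assoc]
    rw [h2, Finset.sum_range_succ, add_smul, one_smul, smul_add]
    have h3 : ∑ j ∈ Finset.range p, (p - 1 - j) • f (j + 1 + c) =
        ∑ j ∈ Finset.range p, (p - 1 - j) • f (j + c) + ∑ j ∈ Finset.range p, f j - p • f c :=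
      eq_sub_of_add_eq h1
    rw [h3, ← ih]
    abel

end Fermat.Agent.S55
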