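import Fermat.Agent.S55.Coh.All

/-!
# S55 / [B] (E2): lifting a `p`-torsion class to `μ`-coefficients
TASK S55/B-BT-CocLift.   (only [A] API.)
-/

set_option autoImplicit false

noncomputable section

namespace Fermat.Agent.S55

variable {p : ℕ} [Fact p.Prime] {H : Type} [Group H] (L : Levels H) {A : Type} [AddCommGroup A]
  (α : Representation ℤ H A) [Smooth L α]
  (μ : Representation (ZMod p) H (ZMod p)) (ι : ZMod p →+ A)

/-- (ABS1) a level 2-cocycle `z'` with `p • z' = d1 y`, `y` a level cochain all of whose values are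
divisible by `p`, is cohomologous to a `μ`-valued level cocycle.
[`s := r ∘ y`, `r` a set theoretic section of multiplication by `p` on the values of `y` (level by
`IsLevel₁.comp`); `z' - d1 s` is killed by `p`, so it is `ι ∘ z`; `z` is level
(`IsLevel₂.of_comp`) and a cocycle (`ι` injective, equivariant).  Compare `exists_ιc_of_p_smul_mem_B2`
in `L/Kummer.lean`.] -/
theorem exists_mu_of_p_smul (ι_inj : Function.Injective ι)
    (ι_surj : ∀ a : A, p • a = 0 → ∃ x, ι x = a) (ι_equiv : ∀ g x, α g (ι x) = ι (μ g x))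
    (z' : H × H → A) (hz' : z' ∈ Z2 L α) (y : H → A) (hy : L.IsLevel₁ y)
    (hdiv : ∀ g, ∃ s : A, p • s = y g) (hzy : p • z' = d1 α y) :
    ∃ z ∈ Z2 L μ, (fun g => ι (z g)) - z' ∈ B2 L α := by
  classical
  let r : A → A := fun a => if h : ∃ s : A, p • s = a then h.choose else 0
  have hr : ∀ g, p • r (y g) = y g := fun g => by
    simp only [r, dif_pos (hdiv g)]
    exact (hdiv g).choose_spec
  have hsy : L.IsLevel₁ (r ∘ y) := hy.comp r
  have hB : d1 α (r ∘ y) ∈ B2 L α := ⟨r ∘ y, hsy, rfl⟩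
  have hw : z' - d1 α (r ∘ y) ∈ Z2 L α := (Z2 L α).sub_mem hz' (B2_le_Z2 hB)
  have hp : p • (r ∘ y) = y := funext hr
  have h3 : p • (z' - d1 α (r ∘ y)) = 0 := by
    rw [smul_sub, ← map_nsmul, hp, hzy, sub_self]
  choose z hz using fun g => ι_surj ((z' - d1 α (r ∘ y)) g) (congrFun h3 g)
  have hzz : (fun g => ι (z g)) = z' - d1 α (r ∘ y) := funext hz
  have hlev : L.IsLevel₂ z := Levels.IsLevel₂.of_comp ι_inj (by
    have h5 : (ι ∘ z) = z' - d1 α (r ∘ y) := hzz
    rw [h5]
    exact (mem_Z2.mp hw).2)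
  refine ⟨z, mem_Z2.mpr ⟨fun g h j => ι_inj ?_, hlev⟩, ?_⟩
  · have h4 := (mem_Z2.mp hw).1 g h j
    rw [← hzz] at h4
    rw [map_add, map_add, ← ι_equiv]
    exact h4
  · rw [hzz, sub_sub_cancel_left]
    exact (B2 L α).neg_mem hB

end Fermat.Agent.S55

end
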