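import Fermat.Agent.S55.L.Cyc
import Fermat.Agent.S55.B.BT.CocComb
import Fermat.Agent.S55.B.BT.CocLift

/-!
# S55 / [B] (E2), the abstract cocycle computation
TASK S55/B-BT-CocAbs.   (only [A] API + `L/Cyc.lean` (`chv`, `cyc`, `chv_mul`, `exists_eq_pow_mul`); no number theory)

`H` a group with levels `L`, `α : Representation ℤ H A` SMOOTH for `L` (think: `A = ℚ_S^×`),
`μ, ι` as in a Kummer datum (`ι : ZMod p → A` identifies `μ` with `A[p]`), `AS ⊆ A` an `H`-stable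
subgroup all of whose elements are divisible by `p` in `A` (think: `S`-units of `ℚ_S`).
`χ : H → ℤ/p` a level character, `χ σ = 1`, `b1 ∈ A^H`, `β ∈ A` such that
 (h2) `n β - β ∈ AS` for `n ∈ ker χ`      ("the divisor of `β` is defined over `L = Fix (ker χ)`"),
 (h3) `∑_{i<p} σ^i β - b1 ∈ AS`           ("the norm of the divisor of `β` is the divisor of `b1`").
CLAIM: `cyc χ b1` is cohomologous (through an `L`-level cochain) to `ι ∘ z`, `z ∈ Z²(L; μ)`.

PROOF.  Write `c(g) = chv χ g`, `f i = σ^i β`, `≡` for congruence modulo `AS`.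
 (F1) `g (f i) ≡ f (i + c(g))`  [`g σ^i = σ^(i+c(g)) n`, `n ∈ ker χ`; h2; stability],
 (F2) `f (i + p) ≡ f i`  [`σ^p ∈ ker χ`],   (F3) `∑_{i<p} f i ≡ b1`.
 `θ g = ∑_{i<c(g)} f i`, `η g = c(g) • b1`, `γ = ∑_{j<p} (p-1-j) • f j`,
 `y g = η g - p • θ g + γ - g γ`.   All of them are level cochains (functions of `χ g`, resp. `d0`).
 * `d1 η = p • cyc χ b1` (`chv_mul`), `d1 (d0 γ) = 0`, hence `d1 y = p • (cyc χ b1 - d1 θ)`.
 * `y g ∈ AS`: modulo `AS`, `y g ≡ c • T - p • ∑_{i<c} f i + ∑_j (p-1-j) • f j - ∑_j (p-1-j) • f (j+c)`, `T = ∑_{i<p} f i`,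
   which vanishes by `comb_identity` (in the quotient group `A ⧸ AS`).
 * `exists_mu_of_p_smul` with `z' = cyc χ b1 - d1 θ`.
-/

set_option autoImplicit false

noncomputable section

namespace Fermat.Agent.S55

variable {p : ℕ} [Fact p.Prime] {H : Type} [Group H] (L : Levels H) {A : Type} [AddCommGroup A]
  (α : Representation ℤ H A) [Smooth L α]
  (μ : Representation (ZMod p) H (ZMod p)) (ι : ZMod p →+ A)

namespace CocAbs

omit [Smooth L α] in
/-- `g β ≡ h β` modulo `AS` if `χ g = χ h`. -/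
lemma act_sub_mem (AS : AddSubgroup A) (hst : ∀ g, ∀ x ∈ AS, α g x ∈ AS)
    (χ : H →* Multiplicative (ZMod p)) (β : A) (h2 : ∀ n ∈ χ.ker, α n β - β ∈ AS)
    (g h : H) (hgh : χ g = χ h) : α g β - α h β ∈ AS := by
  have hn : h⁻¹ * g ∈ χ.ker := by
    rw [MonoidHom.mem_ker, map_mul, map_inv, hgh, inv_mul_cancel]
  have e : α g β - α h β = α h (α (h⁻¹ * g) β - β) := by
    rw [map_sub, ← Module.End.mul_apply, ← map_mul, mul_inv_cancel_left]
  rw [e]
  exact hst _ _ (h2 _ hn)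

omit [Smooth L α] in
/-- `d1 (g ↦ χ~(g) • b) = p • cyc χ b` for invariant `b`. -/
lemma d1_eta (χ : H →* Multiplicative (ZMod p)) (b1 : A) (hb1 : ∀ g, α g b1 = b1) :
    d1 α (fun g => chv χ g • b1) = p • cyc χ b1 := by
  ext ⟨g, h⟩
  have e : (p * ((chv χ g + chv χ h) / p)) • b1 + chv χ (g * h) • b1 =
      chv χ h • b1 + chv χ g • b1 := by
    rw [← add_nsmul, ← add_nsmul]
    congr 1
    have := chv_mul χ g h
    omega
  show α g (chv χ h • b1) - chv χ (g * h) • b1 + chv χ g • b1 = p • cyc χ b1 (g, h)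
  rw [cyc_apply, map_nsmul, hb1 g, smul_smul, eq_sub_of_add_eq e]
  abel

end CocAbs

/-- (ABS) -/
theorem exists_mu_cocycle (ι_inj : Function.Injective ι)
    (ι_surj : ∀ a : A, p • a = 0 → ∃ x, ι x = a) (ι_equiv : ∀ g x, α g (ι x) = ι (μ g x))
    (AS : AddSubgroup A) (hst : ∀ g, ∀ x ∈ AS, α g x ∈ AS) (hdiv : ∀ x ∈ AS, ∃ s : A, p • s = x)
    (χ : H →* Multiplicative (ZMod p)) (hχ : L.IsLevel₁ χ) (σ : H)
    (hσ : χ σ = Multiplicative.ofAdd 1) (b1 β : A) (hb1 : ∀ g, α g b1 = b1)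
    (h2 : ∀ n ∈ χ.ker, α n β - β ∈ AS)
    (h3 : ∑ i ∈ Finset.range p, α (σ ^ i) β - b1 ∈ AS) :
    ∃ z ∈ Z2 L μ, (fun g => ι (z g)) - cyc χ b1 ∈ B2 L α := by
  have hp : 0 < p := (Fact.out : p.Prime).pos
  set f : ℕ → A := fun i => α (σ ^ i) β with hf
  set θ : H → A := fun g => Cyc.psum α σ β (chv χ g) with hθ
  set η : H → A := fun g => chv χ g • b1 with hη
  set γ : A := ∑ j ∈ Finset.range p, (p - 1 - j) • f j with hγ
  set y : H → A := η - p • θ - d0 α γ with hy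
  have hθL : L.IsLevel₁ θ := Cyc.psum_isLevel L α χ hχ σ β
  have hηL : L.IsLevel₁ η := hχ.comp (fun t => (Multiplicative.toAdd t).val • b1)
  have hyL : L.IsLevel₁ y :=
    (C1 ℤ A L).sub_mem ((C1 ℤ A L).sub_mem hηL ((C1 ℤ A L).smul_of_tower_mem p hθL)) (d0_isLevel γ)
  have hB : d1 α θ ∈ B2 L α := ⟨θ, hθL, rfl⟩
  have hz' : cyc χ b1 - d1 α θ ∈ Z2 L α :=
    (Z2 L α).sub_mem (cyc_mem_Z2 L α χ hχ ⟨b1, hb1⟩) (B2_le_Z2 hB)
  have hzy : p • (cyc χ b1 - d1 α θ) = d1 α y := by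
    rw [hy, map_sub, map_sub, d1_d0, sub_zero, map_nsmul, CocAbs.d1_eta α χ b1 hb1, smul_sub]
  -- the values of `y` lie in `AS`
  have hyAS : ∀ g, y g ∈ AS := by
    intro g
    rw [← QuotientAddGroup.eq_zero_iff]
    have key := CocAbs.act_sub_mem α AS hst χ β h2
    set π : A →+ A ⧸ AS := QuotientAddGroup.mk' AS with hπ
    have hπeq : ∀ a b : A, a - b ∈ AS → π a = π b := by
      intro a b hab
      rw [← sub_eq_zero, ← map_sub]
      exact (QuotientAddGroup.eq_zero_iff _).2 hab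
    have F1 : ∀ i, π (α g (f i)) = π (f (i + chv χ g)) := by
      intro i
      apply hπeq
      rw [hf]
      show α g (α (σ ^ i) β) - _ ∈ AS
      rw [← Module.End.mul_apply, ← map_mul]
      apply key
      rw [map_mul, Cyc.map_pow χ σ hσ, Cyc.map_pow χ σ hσ, Nat.cast_add, chv_cast, ofAdd_add,
        ofAdd_toAdd, mul_comm]
    have F2 : ∀ i, π (f (i + p)) = π (f i) := by
      intro i
      apply hπeq
      apply key
      rw [Cyc.map_pow χ σ hσ, Cyc.map_pow χ σ hσ, Nat.cast_add, ZMod.natCast_self, add_zero]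
    have F3 : π b1 = ∑ i ∈ Finset.range p, π (f i) := by
      rw [← map_sum]
      exact (hπeq _ _ h3).symm
    have hc := comb_identity p hp (fun i => π (f i)) F2 (chv χ g)
    show π (y g) = 0
    have hyg : y g = chv χ g • b1 - p • ∑ i ∈ Finset.range (chv χ g), f i - (α g γ - γ) := rfl
    have hgγ : π (α g γ) = ∑ j ∈ Finset.range p, (p - 1 - j) • π (f (j + chv χ g)) := by
      rw [hγ, map_sum, map_sum]
      exact Finset.sum_congr rfl fun j _ => by rw [map_nsmul, map_nsmul, F1]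
    have hγ' : π γ = ∑ j ∈ Finset.range p, (p - 1 - j) • π (f j) := by
      rw [hγ, map_sum]
      exact Finset.sum_congr rfl fun j _ => by rw [map_nsmul]
    rw [← hc, hyg, map_sub, map_sub, map_sub, map_nsmul, map_nsmul, map_sum, hgγ, hγ', F3]
    abel
  obtain ⟨z, hz, hzB⟩ := exists_mu_of_p_smul L α μ ι ι_inj ι_surj ι_equiv _ hz' y hyL
    (fun g => hdiv _ (hyAS g)) hzy
  refine ⟨z, hz, ?_⟩
  have e : (fun g => ι (z g)) - cyc χ b1 = ((fun g => ι (z g)) - (cyc χ b1 - d1 α θ)) - d1 α θ := by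
    abel
  rw [e]
  exact (B2 L α).sub_mem hzB hB

end Fermat.Agent.S55

end
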