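import Fermat.Agent.S55.B.BT.QS
import Fermat.Agent.S55.B.BT.CocAbs
import Fermat.Agent.S55.B.BT.Alpha
import Fermat.Agent.S55.L.Kummer

/-!
# S55 / [B] (E2): symbols `⟨χ,b⟩` which are unramified outside `S` come from `H²(G_S; μ_p)`
TASK S55/B-BT-E2.

`N1 ◁ N` of index `p`, both `LS`-open, `N ≤ ker (cycloChar p)`, `χ : N → ℤ/p` with kernel `N1`; `b ∈ (Fix N)^×` a local norm
at all nonsplit places outside `S`.  CLAIM: `⟨χ,b⟩ ∈ H²(N, Lall; Gm)` is `ι_* infl z0`, `z0 ∈ H²(N, LS; μ_p)`.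

PROOF.  `σ : ↥N` with `χ σ = ofAdd 1`; `t = (σ : GQ) ∈ N \ N1`.  `G.exists_alpha S N N1 ..`: `a, N0, α`.
`β ∈ Qbar` with `β^(p^a) = α` (`IsAlgClosed.exists_pow_nat_eq`).  `b1 = b^N0`.
 * `InQS S α`, `InQS S b`, `InQS S c` for `c ∈ Fix N1` (`InQS.of_mem_Fix`); `InQS S β` by `InQS.root` (`n = p^a`, coprime to `l ∉ S` since `pPrime p ∈ S`).
 * `A' = ↥(smoothPart ((LS S).sub N) (rsub Gm N))`, `α' = smRep ..`; `β, b1` define elements of `A'` (`mem_smoothPart_Gm_iff`);
   `ι' : ZMod p →+ A'` = `iota p` (values are roots of unity: `InQS.root_of_unit` with `u = 1`, or `N`-invariant since `N ≤ ker cycloChar`).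
   `AS = unitsS S N`, `unitsS_stable`, `unitsS_div hpS hN`.
 * (h2) for `n ∈ ker χ` (i.e. `n ∈ N1`): `(n β / β)^(p^a) = n α / α = 1`: `IsUnitOutside.of_pow_eq_one`.
 * (h3) `|∏ t^i β|^(p^a) = |∏ t^i α| = |b|^(N0 p^a)`, so `|∏ t^i β / b1| = 1` (`pow_left_injective` on nonnegative reals).
 * `exists_mu_cocycle ((LS S).sub N) α' (rsub (mu p) N) ι' ..`: `z ∈ Z2 ((LS S).sub N) (rsub (mu p) N)` with `ι' ∘ z - cyc χ b1 = d1 α' y`, `y` level.
   `z0 = H2.mk _ _ ⟨z, _⟩`.  Then `ι2 (infl z0) = mk (iota ∘ z)` (`Pair.map2_mk`, `ι2_mk`) `= cycCl χ (gmOf b1)` (`H2.mk_eq_zero_iff` for the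
   difference, cochain `g ↦ (y g : Additive Qbarˣ)`, level for `Lall.sub N` by `isLevel₁_of_LS`).
 * `gmOf b1 = N0 • gmOf b`, `cycCl χ (N0 • x) = N0 • cycCl χ x = cycCl χ x` since `N0 = 1 + p k` and `p • cycCl = 0`
   (`cycCl_add`, induction; `smul_cycCl`).
-/

set_option autoImplicit false

noncomputable section

namespace Fermat.Agent.S55

open Places ExtCitation

variable {p : ℕ} [Fact p.Prime]

namespace E2aux

/-- the algebraic number underlying an element of `Additive Qbarˣ`. -/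
def val (x : Additive Qbarˣ) : Qbar := ((x.toMul : Qbarˣ) : Qbar)

theorem val_ofMul (b : Qbar) (h : b ≠ 0) : val (Additive.ofMul (Units.mk0 b h)) = b := rfl

theorem val_sub (x y : Additive Qbarˣ) : val (x - y) = val x / val y := by
  unfold val
  rw [toMul_sub, Units.val_div_eq_div_val]

theorem val_sum {J : Type} (s : Finset J) (f : J → Additive Qbarˣ) :
    val (∑ i ∈ s, f i) = ∏ i ∈ s, val (f i) := by
  unfold val
  rw [toMul_sum, Units.coe_prod]

theorem val_Gm (g : GQ) (x : Additive Qbarˣ) : val (Gm g x) = g (val x) := rfl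

theorem val_injective : Function.Injective val := fun _ _ h =>
  Additive.toMul.injective (Units.ext h)

/-- `cycCl` of a multiple. -/
theorem cycCl_nsmul {H : Type} [Group H] (L : Levels H) {A : Type} [AddCommGroup A]
    (α : Representation ℤ H A) [Smooth L α] {m : ℕ} [NeZero m]
    (χ : H →* Multiplicative (ZMod m)) (hχ : L.IsLevel₁ χ) (k : ℕ) (x : ↥(H0 α)) :
    cycCl L α χ hχ (k • x) = k • cycCl L α χ hχ x := by
  induction k with
  | zero =>
    have h := cycCl_add L α χ hχ 0 0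
    rw [add_zero] at h
    rw [zero_smul, zero_smul]
    exact left_eq_add.mp h
  | succ k ih => rw [succ_nsmul, succ_nsmul, cycCl_add, ih]

theorem cycCl_nsmul_of_mod {H : Type} [Group H] (L : Levels H) {A : Type} [AddCommGroup A]
    (α : Representation ℤ H A) [Smooth L α] {m : ℕ} [NeZero m]
    (χ : H →* Multiplicative (ZMod m)) (hχ : L.IsLevel₁ χ) (k : ℕ) (hk : k % m = 1)
    (x : ↥(H0 α)) : cycCl L α χ hχ (k • x) = cycCl L α χ hχ x := by
  rw [cycCl_nsmul]
  conv_lhs => rw [← Nat.div_add_mod k m, hk]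
  rw [add_smul, one_smul, mul_comm, mul_smul, smul_cycCl, smul_zero, zero_add]

end E2aux

open E2aux in
theorem E2 (S : Finset Nat.Primes) (hpS : pPrime p ∈ S) (N N1 : Subgroup GQ)
    (hN : (LS S).IsOpen N) (hN1 : (LS S).IsOpen N1) (hle : N1 ≤ N)
    (hNω : N ≤ (cycloChar p).ker)
    (χ : ↥N →* Multiplicative (ZMod p)) (hχ : ((LS S).sub N).IsLevel₁ χ)
    (hs : Function.Surjective χ) (hker : χ.ker = N1.subgroupOf N)
    (b : Qbar) (hb : b ∈ Places.Fix N) (hb0 : b ≠ 0)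
    (hloc : ∀ (l : Nat.Primes) (g : GQ), l ∉ S → ¬ (G.Dg l g ⊓ N ≤ N1) →
      G.IsNormFrom p (G.Dg l g ⊓ N) (G.Dg l g ⊓ N1) b) :
    ∃ z0 : H2 ((LS S).sub N) (rsub (mu p) N),
      (gmDatum p N).ι2 ((Pair.infl (LS_sub_le N) (rsub (mu p) N)).map2 z0) =
        cycCl (Lall.sub N) (rsub Gm N) χ (isLevel₁_of_LS hχ) (gmOf N b hb hb0) := by
  classical
  have hp : p.Prime := Fact.out
  obtain ⟨σ, hσ⟩ := hs (Multiplicative.ofAdd 1)
  have hσ1 : (σ : GQ) ∉ N1 := by
    intro h1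
    have h2 : σ ∈ χ.ker := by rw [hker]; exact h1
    rw [MonoidHom.mem_ker, hσ] at h2
    exact one_ne_zero (Multiplicative.ofAdd.injective h2 : (1 : ZMod p) = 0)
  have hNall : Lall.IsOpen N := LS_le_Lall N hN
  have hN1in : IsOpenIn N N1 := by
    obtain ⟨E, hE, h⟩ := Lall_isOpen_iff.1 (LS_le_Lall N1 hN1)
    exact ⟨hle, E, hE, inf_le_right.trans h⟩
  have hn : (N1.subgroupOf N).Normal := hker ▸ (inferInstance : χ.ker.Normal)
  have hi : (N1.subgroupOf N).index = p := by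
    rw [← hker]; exact index_ker_of_surjective χ hs
  obtain ⟨a, N0, α, hN0, hα, hα0, hαval, hαnorm⟩ :=
    G.exists_alpha S N N1 hNall hN1in hn hi hNω b hb hb0 hloc σ σ.2 hσ1
  have hpa : 0 < p ^ a := pow_pos hp.pos a
  obtain ⟨β, hβ⟩ := IsAlgClosed.exists_pow_nat_eq α hpa
  have hβ0 : β ≠ 0 := by
    rintro rfl
    rw [zero_pow hpa.ne'] at hβ
    exact hα0 hβ.symm
  have hcop : ∀ l : Nat.Primes, l ∉ S → Nat.Coprime p (l : ℕ) := by
    intro l hl
    rw [Nat.coprime_primes hp l.2]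
    intro h
    apply hl
    have : l = pPrime p := Subtype.ext h.symm
    rw [this]
    exact hpS
  -- membership in `ℚ_S`
  have hαQ : InQS S α := InQS.of_mem_Fix hN1 hα
  have hβQ : InQS S β := InQS.root (n := p ^ a) (fun l hl => (hcop l hl).pow_left a) hαQ hβ
    (fun l hl g => by
      obtain ⟨c, hc, hc0, hcv⟩ := hαval l hl g
      exact ⟨c, hc0, InQS.of_mem_Fix hN1 hc, hcv⟩)
  have hb1Q : InQS S (b ^ N0) := (InQS.of_mem_Fix hN hb).pow N0
  have hb10 : b ^ N0 ≠ 0 := pow_ne_zero _ hb0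
  have hιQ : ∀ x : ZMod p, iota p x ∈ smoothPart ((LS S).sub N) (rsub Gm N) := by
    intro x
    rw [mem_smoothPart_Gm_iff S hN]
    refine InQS.root_of_unit (n := p) hcop InQS.one IsUnitOutside.one ?_
    have h1 : (iota p x).toMul ^ p = 1 := (mem_range_iota_iff p _).1 ⟨x, rfl⟩
    have h2 := congrArg (fun u : Qbarˣ => (u : Qbar)) h1
    simpa using h2
  -- the data for the abstract computation
  let ι' : ZMod p →+ ↥(smoothPart ((LS S).sub N) (rsub Gm N)) :=
    { toFun := fun x => ⟨iota p x, hιQ x⟩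
      map_zero' := Subtype.ext (map_zero _)
      map_add' := fun x y => Subtype.ext (map_add _ x y) }
  let b1 : ↥(smoothPart ((LS S).sub N) (rsub Gm N)) :=
    ⟨Additive.ofMul (Units.mk0 (b ^ N0) hb10), (mem_smoothPart_Gm_iff S hN _).2 hb1Q⟩
  let β' : ↥(smoothPart ((LS S).sub N) (rsub Gm N)) :=
    ⟨Additive.ofMul (Units.mk0 β hβ0), (mem_smoothPart_Gm_iff S hN _).2 hβQ⟩
  have hbfix : ∀ g : ↥N, (g : GQ) b = b := fun g =>
    (IntermediateField.mem_fixedField_iff _ _).1 hb g g.2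
  have hact : ∀ (g : ↥N) (x : ↥(smoothPart ((LS S).sub N) (rsub Gm N))),
      val ((smRep ((LS S).sub N) (rsub Gm N) g x : ↥(smoothPart ((LS S).sub N) (rsub Gm N))) :
        Additive Qbarˣ) = (g : GQ) (val (x : Additive Qbarˣ)) := fun g x => rfl
  obtain ⟨z, hz, hB⟩ := exists_mu_cocycle ((LS S).sub N) (smRep ((LS S).sub N) (rsub Gm N))
    (rsub (mu p) N) ι'
    (fun x y h => iota_injective p (congrArg Subtype.val h))
    (fun x hx => by
      have h1 : (x : Additive Qbarˣ) ∈ Set.range (iota p) := by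
        rw [mem_range_iota_iff, ← toMul_nsmul]
        have := congrArg Subtype.val hx
        rw [show ((p • x : ↥(smoothPart ((LS S).sub N) (rsub Gm N))) : Additive Qbarˣ) =
          p • (x : Additive Qbarˣ) from rfl] at this
        rw [this]
        rfl
      obtain ⟨y, hy⟩ := h1
      exact ⟨y, Subtype.ext hy⟩)
    (fun g x => Subtype.ext (iota_compat p g x).symm)
    (unitsS S N) (unitsS_stable S N) (unitsS_div S hpS hN) χ hχ σ hσ b1 β'
    (fun g => by
      apply Subtype.ext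
      apply val_injective
      rw [hact]
      change (g : GQ) (b ^ N0) = b ^ N0
      rw [map_pow, hbfix])
    (fun n hn => by
      rw [mem_unitsS]
      change IsUnitOutside S (val (((smRep ((LS S).sub N) (rsub Gm N) n β' :
        ↥(smoothPart ((LS S).sub N) (rsub Gm N))) : Additive Qbarˣ) - (β' : Additive Qbarˣ)))
      rw [val_sub, hact]
      change IsUnitOutside S ((n : GQ) β / β)
      refine IsUnitOutside.of_pow_eq_one hpa.ne' ?_
      have hn1 : (n : GQ) ∈ N1 := by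
        have h1 : n ∈ N1.subgroupOf N := hker ▸ hn
        exact h1
      rw [div_pow, ← map_pow, hβ, (IntermediateField.mem_fixedField_iff _ _).1 hα _ hn1,
        div_self hα0])
    (by
      rw [mem_unitsS]
      have e1 : val (((∑ i ∈ Finset.range p, smRep ((LS S).sub N) (rsub Gm N) (σ ^ i) β' - b1 :
          ↥(smoothPart ((LS S).sub N) (rsub Gm N))) : Additive Qbarˣ)) =
          (∏ i ∈ Finset.range p, ((σ : GQ) ^ i) β) / b ^ N0 := by
        rw [Submodule.coe_sub, val_sub, Submodule.coe_sum, val_sum]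
        rfl
      change IsUnitOutside S (val _)
      rw [e1]
      intro l hl g
      rw [nrmg_div, nrmg_pow]
      have h1 : G.nrmg l g (∏ i ∈ Finset.range p, ((σ : GQ) ^ i) β) ^ (p ^ a) =
          (G.nrmg l g b ^ N0) ^ (p ^ a) := by
        rw [← nrmg_pow, ← Finset.prod_pow, ← pow_mul, ← hαnorm l hl g]
        congr 1
        refine Finset.prod_congr rfl fun i _ => ?_
        rw [← map_pow, hβ]
      have h2 : G.nrmg l g (∏ i ∈ Finset.range p, ((σ : GQ) ^ i) β) = G.nrmg l g b ^ N0 :=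
        (pow_left_inj₀ (G.nrmg_nonneg l g _) (pow_nonneg (G.nrmg_nonneg l g _) _) hpa.ne').1 h1
      rw [h2]
      refine div_self (pow_ne_zero _ ?_)
      rw [Ne, G.nrmg_eq_zero_iff]
      exact hb0)
  refine ⟨H2.mk ((LS S).sub N) (rsub (mu p) N) ⟨z, hz⟩, ?_⟩
  have hb1fix : b ^ N0 ∈ Places.Fix N := pow_mem hb N0
  have hgm : gmOf N (b ^ N0) hb1fix hb10 = N0 • gmOf N b hb hb0 := by
    apply Subtype.ext
    apply val_injective
    change b ^ N0 = val (N0 • (Additive.ofMul (Units.mk0 b hb0)))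
    unfold val
    rw [toMul_nsmul, toMul_ofMul, Units.val_pow_eq_pow_val, Units.val_mk0]
  rw [← cycCl_nsmul_of_mod (Lall.sub N) (rsub Gm N) χ (isLevel₁_of_LS hχ) N0 hN0, ← hgm,
    Pair.map2_mk, KummerDatum.ι2_mk, cycCl, ← sub_eq_zero, ← map_sub, H2.mk_eq_zero_iff]
  obtain ⟨y, hy, hyE⟩ := mem_B2.1 hB
  refine ⟨fun g => (y g : Additive Qbarˣ), isLevel₁_of_LS (hy.comp Subtype.val), fun g h => ?_⟩
  exact congrArg Subtype.val (hyE g h)

end Fermat.Agent.S55

end
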