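import Fermat.Agent.S55.B.BT.LocSym
import Fermat.Agent.S55.B.BT.E2
import Fermat.Agent.S55.G.BridgeSI
import Fermat.Agent.S55.L.BridgeNorm

/-!
# S55 / [B] (bt), step B: any two families of local classes are dependent modulo global classes
-/

set_option autoImplicit false

noncomputable section

namespace Fermat.Agent.S55

open Places ExtCitation

variable {p : ℕ} [Fact p.Prime]

namespace BT

/-- `cycCl` as an additive map. -/
def cycClHom {H : Type} [Group H] (L : Levels H) {A : Type} [AddCommGroup A]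
    (α : Representation ℤ H A) [Smooth L α] {m : ℕ} [NeZero m] (χ : H →* Multiplicative (ZMod m))
    (hχ : L.IsLevel₁ χ) : ↥(H0 α) →+ H2 L α :=
  AddMonoidHom.mk' (cycCl L α χ hχ) (cycCl_add L α χ hχ)

theorem ι2_comb {H : Type} [Group H] {L : Levels H} (D : KummerDatum p H L) (m m' : ℕ)
    (y y' : H2 L D.μ) :
    D.ι2 (-(m : ZMod p) • y + -(m' : ZMod p) • y') = -(m • D.ι2 y) + -(m' • D.ι2 y') := by
  rw [map_add, neg_smul, neg_smul, map_neg, map_neg, Nat.cast_smul_eq_nsmul,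
    Nat.cast_smul_eq_nsmul, map_nsmul, map_nsmul]

theorem isOpenIn_inf_of_isOpen (D : Subgroup GQ) {N : Subgroup GQ} (hN : Lall.IsOpen N) :
    IsOpenIn D (D ⊓ N) := by
  obtain ⟨E, hE, hle⟩ := Lall_isOpen_iff.1 hN
  exact ⟨inf_le_left, E, hE, inf_le_inf_left D hle⟩

theorem isOpenIn_of_isOpen_of_le {N N1 : Subgroup GQ} (hN1 : Lall.IsOpen N1) (hle : N1 ≤ N) :
    IsOpenIn N N1 := by
  obtain ⟨E, hE, hle'⟩ := Lall_isOpen_iff.1 hN1
  exact ⟨hle, E, hE, inf_le_right.trans hle'⟩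

theorem not_Dg_inf_le {N N1 : Subgroup GQ} (hNn : N.Normal) (hN1n : N1.Normal) (l : Nat.Primes)
    (h : ¬ (G.Dg l 1 ⊓ N ≤ N1)) (γ : GQ) : ¬ (G.Dg l γ ⊓ N ≤ N1) := by
  intro hle
  apply h
  intro d hd'
  obtain ⟨hd, hdN⟩ := Subgroup.mem_inf.1 hd'
  have h1 : γ * d * γ⁻¹ ∈ G.Dg l γ := by
    rw [G.mem_Dg_iff] at hd ⊢
    simpa [mul_assoc] using hd
  have h2 : γ * d * γ⁻¹ ∈ N1 := hle ⟨h1, hNn.conj_mem d hdN γ⟩
  have h3 := hN1n.conj_mem _ h2 γ⁻¹
  simpa [mul_assoc] using h3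


section main

variable (hp2 : p ≠ 2) (S : Finset Nat.Primes) (hpS : pPrime p ∈ S) (N N1 : Subgroup GQ)

/-- the local group at `i = (l, γ)`. -/
abbrev Wi (i : ↥S × GQ) : Subgroup GQ := G.Dg i.1.1 i.2 ⊓ N

include hp2 hpS in
theorem bt_dep (hN : (LS S).IsOpen N) (hNn : N.Normal)
    (hNω : N ≤ (cycloChar p).ker) (hN1 : (LS S).IsOpen N1) (hle : N1 ≤ N) (hN1n : N1.Normal)
    (hidx : (N1.subgroupOf N).index = p) (hns : ∀ l ∈ S, ¬ (G.Dg l 1 ⊓ N ≤ N1))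
    (I : Finset (↥S × GQ))
    (hI : ∀ i ∈ I, ∀ j ∈ I, G.SamePlace N (i.1.1, i.2) (j.1.1, j.2) → i = j)
    (y y' : ∀ i : ↥S × GQ, H2 (Lall.sub (Wi S N i)) (rsub (mu p) (Wi S N i))) :
    ∃ a a' : ZMod p, (a ≠ 0 ∨ a' ≠ 0) ∧ ∃ z0 : H2 ((LS S).sub N) (rsub (mu p) N),
      ∀ i ∈ I, (Pair.resLE Lall (mu p) (inf_le_right : Wi S N i ≤ N)).map2
        ((Pair.infl (LS_sub_le N) (rsub (mu p) N)).map2 z0) = a • y i + a' • y' i := by
  classical
  have hNall : Lall.IsOpen N := LS_le_Lall N hN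
  have hN1all : Lall.IsOpen N1 := LS_le_Lall N1 hN1
  haveI hnorm : (N1.subgroupOf N).Normal := hN1n.subgroupOf N
  -- the character
  obtain ⟨χ, hχ, hs, hker⟩ := exists_char_of_index_prime (L := (LS S).sub N) (N1.subgroupOf N)
    (Levels.IsOpen.subgroupOf hN1 N) hidx
  have hχ' : (Lall.sub N).IsLevel₁ χ := isLevel₁_of_LS hχ
  -- local data
  have hnsi : ∀ i : ↥S × GQ, ¬ (G.Dg i.1.1 i.2 ⊓ N ≤ N1) := fun i =>
    not_Dg_inf_le hNn hN1n i.1.1 (hns i.1.1 i.1.2) i.2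
  let χi : ∀ i : ↥S × GQ, ↥(Wi S N i) →* Multiplicative (ZMod p) := fun i =>
    χ.comp (Subgroup.inclusion (inf_le_right : Wi S N i ≤ N))
  have hχi : ∀ i, (Lall.sub (Wi S N i)).IsLevel₁ (χi i) := fun i =>
    isLevel₁_char_comp_inclusion _ hχ'
  have hkeri : ∀ i, (χi i).ker = (G.Dg i.1.1 i.2 ⊓ N1).subgroupOf (Wi S N i) := by
    intro i
    ext w
    rw [MonoidHom.mem_ker, Subgroup.mem_subgroupOf]
    have h1 : χi i w = 1 ↔ (Subgroup.inclusion (inf_le_right : Wi S N i ≤ N) w) ∈ χ.ker := Iff.rfl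
    rw [h1, hker, Subgroup.mem_subgroupOf]
    constructor
    · intro h
      exact ⟨w.2.1, h⟩
    · intro h
      exact h.2
  have hlei : ∀ i : ↥S × GQ, G.Dg i.1.1 i.2 ⊓ N1 ≤ Wi S N i := fun i => inf_le_inf_left _ hle
  have hsi : ∀ i, Function.Surjective (χi i) := by
    intro i
    apply surjective_of_ne_one
    intro h1
    apply hnsi i
    intro w hw
    have h2 : (⟨w, hw⟩ : ↥(Wi S N i)) ∈ (χi i).ker := by
      rw [h1]; exact MonoidHom.mem_ker.2 rfl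
    rw [hkeri i, Subgroup.mem_subgroupOf] at h2
    exact h2.2
  have hopen : ∀ i : ↥S × GQ, IsOpenIn (G.Dg i.1.1 i.2) (Wi S N i) := fun i =>
    isOpenIn_inf_of_isOpen _ hNall
  -- the local classes are symbols
  have hx : ∀ i, ∃ (x : Qbar) (hx : x ∈ Places.Fix (Wi S N i)) (hx0 : x ≠ 0),
      (gmDatum p (Wi S N i)).ι2 (y i) =
        cycCl (Lall.sub (Wi S N i)) (rsub Gm (Wi S N i)) (χi i) (hχi i) (gmOf _ x hx hx0) := by
    intro i
    obtain ⟨b, hb⟩ := exists_cycCl_eq hp2 i.1.1 i.2 (Wi S N i) (hopen i) (χi i) (hχi i) (hsi i) (y i)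
    obtain ⟨x, hx, hx0, rfl⟩ := exists_eq_gmOf _ b
    exact ⟨x, hx, hx0, hb⟩
  have hx' : ∀ i, ∃ (x : Qbar) (hx : x ∈ Places.Fix (Wi S N i)) (hx0 : x ≠ 0),
      (gmDatum p (Wi S N i)).ι2 (y' i) =
        cycCl (Lall.sub (Wi S N i)) (rsub Gm (Wi S N i)) (χi i) (hχi i) (gmOf _ x hx hx0) := by
    intro i
    obtain ⟨b, hb⟩ := exists_cycCl_eq hp2 i.1.1 i.2 (Wi S N i) (hopen i) (χi i) (hχi i) (hsi i) (y' i)
    obtain ⟨x, hx, hx0, rfl⟩ := exists_eq_gmOf _ b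
    exact ⟨x, hx, hx0, hb⟩
  choose x hxF hx0 hxy using hx
  choose x' hxF' hx0' hxy' using hx'
  -- the second inequality
  let e : ↥S × GQ → Nat.Primes × GQ := fun i => (i.1.1, i.2)
  let X : Nat.Primes × GQ → Qbar := fun j => if h : j.1 ∈ S then x (⟨j.1, h⟩, j.2) else 1
  let X' : Nat.Primes × GQ → Qbar := fun j => if h : j.1 ∈ S then x' (⟨j.1, h⟩, j.2) else 1
  have hX : ∀ i : ↥S × GQ, X (e i) = x i := by
    intro i
    simp only [X, e, dif_pos i.1.2]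
  have hX' : ∀ i : ↥S × GQ, X' (e i) = x' i := by
    intro i
    simp only [X', e, dif_pos i.1.2]
  obtain ⟨m, m', hmm, b, hb, hb0, hbout, hbI⟩ := G.SI_Fix (localNormIndexFix p) hp2 N N1 hNall
    (isOpenIn_of_isOpen_of_le hN1all hle) hnorm hidx hNω (I.image e)
    (by
      intro i0 hi0 j0 hj0 hij
      obtain ⟨i, hi, rfl⟩ := Finset.mem_image.1 hi0
      obtain ⟨j, hj, rfl⟩ := Finset.mem_image.1 hj0
      rw [hI i hi j hj hij])
    (by
      intro i0 hi0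
      obtain ⟨i, hi, rfl⟩ := Finset.mem_image.1 hi0
      exact hnsi i)
    X X'
    (by
      intro i0 hi0
      obtain ⟨i, hi, rfl⟩ := Finset.mem_image.1 hi0
      rw [hX]
      exact ⟨hxF i, hx0 i⟩)
    (by
      intro i0 hi0
      obtain ⟨i, hi, rfl⟩ := Finset.mem_image.1 hi0
      rw [hX']
      exact ⟨hxF' i, hx0' i⟩)
  -- (E2)
  obtain ⟨z0, hz0⟩ := E2 S hpS N N1 hN hN1 hle hNω χ hχ hs hker b hb hb0 (by
    intro l g hl hsplit
    refine hbout l g hsplit ?_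
    intro i0 hi0 hsame
    obtain ⟨i, hi, rfl⟩ := Finset.mem_image.1 hi0
    apply hl
    have : (e i).1 = l := hsame.1
    rw [← this]
    exact i.1.2)
  refine ⟨-(m : ZMod p), -(m' : ZMod p), ?_, z0, ?_⟩
  · by_contra hcon
    push Not at hcon
    apply hmm
    constructor
    · exact (ZMod.natCast_eq_zero_iff m p).1 (neg_eq_zero.1 hcon.1)
    · exact (ZMod.natCast_eq_zero_iff m' p).1 (neg_eq_zero.1 hcon.2)
  · intro i hi
    apply (gmDatum p (Wi S N i)).ι2_injective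
    rw [ι2_resLE, hz0, resLE_cycCl]
    have hnorm_i := hbI (e i) (Finset.mem_image_of_mem e hi)
    rw [hX, hX'] at hnorm_i
    have hbW : b ∈ Places.Fix (Wi S N i) := Fix_anti inf_le_right hb
    have hmem : b * x i ^ m * x' i ^ m' ∈ Places.Fix (Wi S N i) :=
      mul_mem (mul_mem hbW (pow_mem (hxF i) m)) (pow_mem (hxF' i) m')
    have hne : b * x i ^ m * x' i ^ m' ≠ 0 :=
      mul_ne_zero (mul_ne_zero hb0 (pow_ne_zero m (hx0 i))) (pow_ne_zero m' (hx0' i))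
    have hzero := (cycCl_gmOf_eq_zero_iff (Wi S N i) (G.Dg i.1.1 i.2 ⊓ N1) (hlei i) (χi i) (hχi i)
      (hsi i) (hkeri i) _ hmem hne).2 hnorm_i
    have hsplit : gmOf (Wi S N i) (b * x i ^ m * x' i ^ m') hmem hne =
        gmOf _ b hbW hb0 + m • gmOf _ (x i) (hxF i) (hx0 i) + m' • gmOf _ (x' i) (hxF' i) (hx0' i) := by
      rw [← gmOf_pow, ← gmOf_pow, ← gmOf_mul, ← gmOf_mul]
    set C := cycClHom (Lall.sub (Wi S N i)) (rsub Gm (Wi S N i)) (χi i) (hχi i) with hC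
    have hzero' : C (gmOf _ b hbW hb0) + m • C (gmOf _ (x i) (hxF i) (hx0 i)) +
        m' • C (gmOf _ (x' i) (hxF' i) (hx0' i)) = 0 := by
      rw [← map_nsmul, ← map_nsmul, ← map_add, ← map_add, ← hsplit]
      exact hzero
    have e1 : (gmDatum p (Wi S N i)).ι2 (y i) = C (gmOf _ (x i) (hxF i) (hx0 i)) := hxy i
    have e2 : (gmDatum p (Wi S N i)).ι2 (y' i) = C (gmOf _ (x' i) (hxF' i) (hx0' i)) := hxy' i
    change C (gmOf _ b hbW hb0) = _
    refine Eq.trans ?_ (ι2_comb (gmDatum p (Wi S N i)) m m' (y i) (y' i)).symm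
    rw [e1, e2]
    calc C (gmOf _ b hbW hb0) = (C (gmOf _ b hbW hb0) + m • C (gmOf _ (x i) (hxF i) (hx0 i)) +
          m' • C (gmOf _ (x' i) (hxF' i) (hx0' i))) - m • C (gmOf _ (x i) (hxF i) (hx0 i)) -
          m' • C (gmOf _ (x' i) (hxF' i) (hx0' i)) := by abel
      _ = _ := by rw [hzero']; abel

end main

end BT

end Fermat.Agent.S55

end
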