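import Fermat.Agent.S55.Z.ArithDatum
import Fermat.Agent.S55.Places.Cyclo

/-!
# S55 / [B] (bt), step 0: the cyclotomic tower
TASK S55/B-BT-Tower.

PROOF.  `N0 ≤ U` normal `LS`-open (`(LS S).exists_normal`).  For `l ∈ S`: `W_l = Dq l ⊓ N0` is open in
`Dq l` (`LS_le_Lall`, `Lall_isOpen_iff`, `isOpenIn_inf_fixingSubgroup`, `IsOpenIn.of_le`);
`exists_nonsplit_level` gives `n₀(l)`.  `n = max 1 (sup_l n₀(l))`.
`N = N0 ⊓ (cycloNF (p^n)).fixingSubgroup`, `N1 = N0 ⊓ (cycloNF (p^(n+1))).fixingSubgroup`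
(`Z/Cyclo.lean`: `mem_fixingSubgroup_cycloNF_iff`, `isUnramifiedOutside_cycloNF`; `LS_isOpen_iff`).
Normal: `g ζ` is again a root of unity.  `N ≤ ker (cycloChar p)`: `cycloChar_eq_one_of_fixes`, `ζ^p = 1 → ζ^(p^n) = 1` as `n ≥ 1`.
Nonsplit: the `g ∈ W_l` of `exists_nonsplit_level` is in `Dq l ⊓ N`, not in `N1`.
Index: `ξ` a primitive `p^(n+1)`-th root of unity, `ζ = ξ^(p^n)` (primitive `p`-th root, fixed by `N`).  For `g ∈ N`:
`(g ξ / ξ)^(p^n) = g(ξ^(p^n)) / ξ^(p^n)`... more simply `(g ξ)^p = g (ξ^p) = ξ^p` since `(ξ^p)^(p^n) = 1`, so `g ξ = ξ ζ^(k g)`,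
`k : N → ZMod p` is a homomorphism (`g` fixes `ζ`) with kernel `N1.subgroupOf N` (an element fixing `ξ` fixes all of `μ_{p^(n+1)}`);
it is nontrivial (nonsplit at `pPrime p ∈ S`), hence surjective, and the index is `p`
(`Subgroup.index_ker`, or `index ∣ p` and `≠ 1`).
-/

set_option autoImplicit false

noncomputable section

namespace Fermat.Agent.S55

open Places ExtCitation

variable {p : ℕ} [Fact p.Prime]

namespace Tower

theorem normal_fixingSubgroup_cycloNF (m : ℕ) : ((cycloNF m).fixingSubgroup).Normal := by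
  refine ⟨fun g hg h => ?_⟩
  rw [mem_fixingSubgroup_cycloNF_iff] at hg ⊢
  intro ζ hζ
  have h1 : (h⁻¹ ζ) ^ m = 1 := by rw [← map_pow, hζ, map_one]
  change h (g (h⁻¹ ζ)) = ζ
  rw [hg _ h1]
  change (h * h⁻¹) ζ = ζ
  rw [mul_inv_cancel]
  rfl

theorem isOpen_fixingSubgroup_cycloNF (S : Finset Nat.Primes) (hpS : pPrime p ∈ S) (n : ℕ) :
    (LS S).IsOpen (cycloNF (p ^ n)).fixingSubgroup := by
  have hp : p.Prime := Fact.out
  refine LS_isOpen_iff.2 ⟨cycloNF (p ^ n),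
    isUnramifiedOutside_cycloNF _ (pow_ne_zero _ hp.ne_zero) S ?_, le_rfl⟩
  intro q hq
  have h1 : (q : ℕ) = p := (Nat.prime_dvd_prime_iff_eq q.2 hp).1 (q.2.dvd_of_dvd_pow hq)
  have h2 : q = pPrime p := Subtype.ext h1
  rw [h2]
  exact hpS

/-- the Kummer-type character `g ↦ g ξ / ξ` -/
theorem index_eq (N0 : Subgroup GQ) (n : ℕ) (hn : 1 ≤ n)
    (hne : ¬ (N0 ⊓ (cycloNF (p ^ n)).fixingSubgroup ≤ N0 ⊓ (cycloNF (p ^ (n + 1))).fixingSubgroup)) :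
    ((N0 ⊓ (cycloNF (p ^ (n + 1))).fixingSubgroup).subgroupOf
      (N0 ⊓ (cycloNF (p ^ n)).fixingSubgroup)).index = p := by
  have hp : p.Prime := Fact.out
  have : NeZero (p ^ (n + 1)) := ⟨pow_ne_zero _ hp.ne_zero⟩
  have : NeZero p := ⟨hp.ne_zero⟩
  obtain ⟨ξ, hξ⟩ := cyclo_exists_primitiveRoot (p ^ (n + 1))
  have hξ0 : ξ ≠ 0 := hξ.ne_zero (pow_ne_zero _ hp.ne_zero)
  set N := N0 ⊓ (cycloNF (p ^ n)).fixingSubgroup with hN
  set N1 := N0 ⊓ (cycloNF (p ^ (n + 1))).fixingSubgroup with hN1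
  have hfix : ∀ g ∈ N, ∀ ζ : Qbar, ζ ^ (p ^ n) = 1 → g ζ = ζ := fun g hg =>
    (mem_fixingSubgroup_cycloNF_iff _ g).1 hg.2
  have hc : ∀ g ∈ N, (g ξ / ξ) ^ p = 1 := by
    intro g hg
    have h1 : (ξ ^ p) ^ (p ^ n) = 1 := by
      rw [← pow_mul, ← pow_succ', hξ.pow_eq_one]
    rw [div_pow, ← map_pow, hfix g hg _ h1, div_self (pow_ne_zero _ hξ0)]
  have hc' : ∀ g ∈ N, (g ξ / ξ) ^ (p ^ n) = 1 := by
    intro g hg
    obtain ⟨m, rfl⟩ : ∃ m, n = m + 1 := ⟨n - 1, by omega⟩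
    rw [pow_succ', pow_mul, hc g hg, one_pow]
  let φ : N →* Qbarˣ :=
    { toFun := fun g => Units.mk0 (g.1 ξ / ξ) (div_ne_zero ((map_ne_zero _).2 hξ0) hξ0)
      map_one' := by
        apply Units.ext
        change (1 : GQ) ξ / ξ = 1
        rw [AlgEquiv.one_apply, div_self hξ0]
      map_mul' := by
        intro g h
        apply Units.ext
        change (g.1 * h.1) ξ / ξ = (g.1 ξ / ξ) * (h.1 ξ / ξ)
        have h1 : h.1 ξ = ξ * (h.1 ξ / ξ) := by field_simp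
        rw [AlgEquiv.mul_apply]
        conv_lhs => rw [h1, map_mul, hfix g.1 g.2 _ (hc' h.1 h.2)]
        ring }
  have hker : φ.ker = N1.subgroupOf N := by
    ext g
    rw [MonoidHom.mem_ker, Subgroup.mem_subgroupOf]
    constructor
    · intro h
      have h1 : g.1 ξ / ξ = 1 := congrArg Units.val h
      have h2 : g.1 ξ = ξ := by
        rw [div_eq_one_iff_eq hξ0] at h1
        exact h1
      refine ⟨g.2.1, (mem_fixingSubgroup_cycloNF_iff _ _).2 fun ζ hζ => ?_⟩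
      obtain ⟨i, -, rfl⟩ := hξ.eq_pow_of_pow_eq_one hζ
      rw [map_pow, h2]
    · intro h
      apply Units.ext
      change g.1 ξ / ξ = 1
      rw [(mem_fixingSubgroup_cycloNF_iff _ _).1 h.2 ξ hξ.pow_eq_one, div_self hξ0]
  rw [← hker, Subgroup.index_ker]
  have hle : φ.range ≤ rootsOfUnity p Qbar := by
    rintro _ ⟨g, rfl⟩
    rw [mem_rootsOfUnity]
    apply Units.ext
    exact hc g.1 g.2
  have hdvd : Nat.card φ.range ∣ p := by
    have := Subgroup.card_dvd_of_le hle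
    rwa [card_rootsOfUnity_eq_self p] at this
  rcases (Nat.dvd_prime hp).1 hdvd with h | h
  · exfalso
    rw [← Subgroup.index_ker, hker, Subgroup.index_eq_one, Subgroup.subgroupOf_eq_top] at h
    exact hne h
  · exact h

end Tower

theorem exists_tower (hp2 : p ≠ 2) (S : Finset Nat.Primes) (hpS : pPrime p ∈ S) (U : Subgroup GQ)
    (hU : (LS S).IsOpen U) :
    ∃ N N1 : Subgroup GQ, (LS S).IsOpen N ∧ N ≤ U ∧ N.Normal ∧ N ≤ (cycloChar p).ker ∧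
      (LS S).IsOpen N1 ∧ N1 ≤ N ∧ N1.Normal ∧ (N1.subgroupOf N).index = p ∧
      ∀ l ∈ S, ¬ (DqP l ⊓ N ≤ N1) := by
  have hp : p.Prime := Fact.out
  obtain ⟨N0, hN0open, hN0U, hN0n, -⟩ := (LS S).exists_normal hU
  obtain ⟨E, hE, hEN0⟩ := Lall_isOpen_iff.1 (LS_le_Lall N0 hN0open)
  have hlev : ∀ l : Nat.Primes, ∃ n₀ : ℕ, ∀ n : ℕ, n₀ ≤ n → ∃ g ∈ DqP l ⊓ N0,
      (∀ ζ : Qbar, ζ ^ (p ^ n) = 1 → g ζ = ζ) ∧ ∃ ζ : Qbar, ζ ^ (p ^ (n + 1)) = 1 ∧ g ζ ≠ ζ := by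
    intro l
    have : Fact (l : ℕ).Prime := ⟨l.2⟩
    have hW : IsOpenIn (Dq (l : ℕ)) (Dq (l : ℕ) ⊓ N0) :=
      ⟨inf_le_left, E, hE, fun g hg => ⟨hg.1, hEN0 hg.2⟩⟩
    exact exists_nonsplit_level (q := (l : ℕ)) hW hp hp2
  choose n₀ hn₀ using hlev
  set n := max 1 (S.sup n₀) with hn
  have hn1 : 1 ≤ n := le_max_left _ _
  have hnl : ∀ l ∈ S, n₀ l ≤ n := fun l hl => (Finset.le_sup hl).trans (le_max_right _ _)
  have hsplit : ∀ l ∈ S, ¬ (DqP l ⊓ (N0 ⊓ (cycloNF (p ^ n)).fixingSubgroup) ≤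
      N0 ⊓ (cycloNF (p ^ (n + 1))).fixingSubgroup) := by
    intro l hl hle
    obtain ⟨g, hg, hfix, ζ, hζ, hmove⟩ := hn₀ l n (hnl l hl)
    have h1 : g ∈ DqP l ⊓ (N0 ⊓ (cycloNF (p ^ n)).fixingSubgroup) :=
      ⟨hg.1, hg.2, (mem_fixingSubgroup_cycloNF_iff _ _).2 hfix⟩
    exact hmove ((mem_fixingSubgroup_cycloNF_iff _ _).1 (hle h1).2 ζ hζ)
  have := Tower.normal_fixingSubgroup_cycloNF (p ^ n)
  have := Tower.normal_fixingSubgroup_cycloNF (p ^ (n + 1))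
  refine ⟨N0 ⊓ (cycloNF (p ^ n)).fixingSubgroup, N0 ⊓ (cycloNF (p ^ (n + 1))).fixingSubgroup,
    (LS S).isOpen_inf hN0open (Tower.isOpen_fixingSubgroup_cycloNF S hpS n),
    inf_le_left.trans hN0U, inferInstance, ?_,
    (LS S).isOpen_inf hN0open (Tower.isOpen_fixingSubgroup_cycloNF S hpS (n + 1)), ?_,
    inferInstance, ?_, hsplit⟩
  · intro g hg
    rw [MonoidHom.mem_ker]
    refine cycloChar_eq_one_of_fixes p g fun ζ hζ => ?_
    refine (mem_fixingSubgroup_cycloNF_iff _ _).1 hg.2 ζ ?_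
    obtain ⟨m, hm⟩ : ∃ m, n = m + 1 := ⟨n - 1, by omega⟩
    rw [hm, pow_succ', pow_mul, hζ, one_pow]
  · intro g hg
    refine ⟨hg.1, (mem_fixingSubgroup_cycloNF_iff _ _).2 fun ζ hζ => ?_⟩
    refine (mem_fixingSubgroup_cycloNF_iff _ _).1 hg.2 ζ ?_
    rw [pow_succ, pow_mul, hζ, one_pow]
  · exact Tower.index_eq N0 n hn1 fun hle => hsplit _ hpS (inf_le_right.trans hle)

end Fermat.Agent.S55

end
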