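import Fermat.Agent.S55.B.BT.Abs
import Fermat.Agent.S55.B.BT.Tower
import Fermat.Agent.S55.B.BT.Dep

/-!
# S55 / [B] (bt): the field `bt` of `Datum.Axioms` for the arithmetic datum
-/

set_option autoImplicit false

noncomputable section

namespace Fermat.Agent.S55

open Places ExtCitation

variable {p : ℕ} [Fact p.Prime]

theorem bt_main (hp2 : p ≠ 2) (S : Finset Nat.Primes) (hpS : pPrime p ∈ S) (U : Subgroup GQ)
    (hU : (LS S).IsOpen U) :
    ∃ N : Subgroup GQ, (LS S).IsOpen N ∧ N ≤ U ∧ N.Normal ∧ N ≤ (cycloChar p).ker ∧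
      (arithDatum p S hpS).c (Fun (Representation.trivial (ZMod p) GQ (ZMod p)) (GQ ⧸ N)) ≤ 1 := by
  obtain ⟨N, N1, hN, hNU, hNn, hNω, hN1, hle, hN1n, hidx, hns⟩ := exists_tower hp2 S hpS U hU
  refine ⟨N, hN, hNU, hNn, hNω, ?_⟩
  haveI := hNn
  refine (arithDatum p S hpS).c_Fun_le_one N hN (mu p) ?_ ?_
  · intro n hn x
    have h1 : cycloChar p n = 1 := hNω hn
    rw [mu_apply, h1]
    simp
  · intro I hI y y'
    have hns' : ∀ l ∈ S, ¬ (G.Dg l 1 ⊓ N ≤ N1) := by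
      intro l hl
      rw [BT.Dg_one]
      exact hns l hl
    have hI' : ∀ i ∈ I, ∀ j ∈ I, G.SamePlace N (i.1.1, i.2) (j.1.1, j.2) → i = j := by
      intro i hi j hj h
      exact hI i hi j hj ⟨Subtype.ext h.1, h.2⟩
    obtain ⟨a, a', haa, z0, hz0⟩ :=
      BT.bt_dep hp2 S hpS N N1 hN hNn hNω hN1 hle hN1n hidx hns' I hI' y y'
    refine ⟨a, a', haa, z0, fun i hi => ?_⟩
    refine Eq.trans ?_ (hz0 i hi)
    unfold Datum.locSub
    rw [Pair.map2_comp]
    rfl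

end Fermat.Agent.S55

end
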