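import Fermat.Agent.S55.Coh.All
import Fermat.Agent.S55.D.Setup
import Fermat.Agent.S55.L.LinAlg

/-!
# S55 / [B] (bt), step A: abstract reduction (Shapiro + Mackey + conjugation)
TASK S55/B-BT-Abs.

`𝒜` a datum, `N` a normal `L`-open subgroup, `Ω = G ⧸ N`, `ρ = Fun triv Ω`, `m` a representation on
`ZMod p` which is trivial on `N` (think `μ_p`).  For `i = (v, γ)` let `cj i = γ D_v γ⁻¹`.

CLAIM: if, for every finite set `I` of pairwise inequivalent pairs `i`, any two families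
`y, y' ∈ ∏_i H²(cj i ⊓ N; m)` are linearly dependent modulo the image of `H²(N, L; m)`, then
`c ρ = dim coker (loc² ρ) ≤ 1`.

PROOF.  If `P2 ρ` is not finite dimensional then `p2 = 0` and `c = - r2 ≤ 0`.  Otherwise
`c = finrank (P2 ρ ⧸ range loc2)` and by `finrank_le_one_of_dependent` it is enough to show: for
`x x' : P2 ρ` there are `(a,a') ≠ 0` and `z` with `loc2 z = a x + a' x'`.
For `i = (v,γ)` let `Φ i : H²(D_v; ρ) → H²(cj i ⊓ N; m)` be the composite of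
`(Pair.evSub Lloc triv Ω (D v) (D v ⊓ N) _ (γ⁻¹ N) _).map2`, of
`(Pair.conj Lloc triv γ⁻¹ _).map2 : H²(D_v ⊓ N; triv) → H²(cj i ⊓ N; triv)` and of the coefficient
isomorphism `triv → m` over `cj i ⊓ N` (identity map of `ZMod p`; a `Pair` with `f = id`, `φ = id`).
(1) `Φ (v,γ) (loc v ρ z) = locSub (v,γ) (e (sh z))` for `z : H² (L; ρ)`, where
    `sh = (Pair.sh L triv N).map2` and `e : H²(N,L;triv) → H²(N,L;m)` is the coefficient isomorphism: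
    `evSub_res2`, `conj_ev2` (with `g = γ⁻¹`, `x = 1 N`, applied to `infl z`), everything else is
    `Pair.map2_comp` + `Pair.map2_congr rfl rfl`.
(2) `e ∘ sh` is surjective (`sh_bijective2`, `Pair.isDense_coeff`).
(3) for fixed `v` choose representatives `γ_j⁻¹ N` of the `D_v`-orbits on `Ω` (finite);
    `evSub_pi_bijective2` (with `W j = D v ⊓ N`, as `N` is normal) + injectivity of `conj`
    (`Pair.isDense_conj`) and of the coefficient isomorphism:  `x_v` is determined by the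
    `Φ (v,γ_j) x_v`.
(4) `I = {(v,γ_j)}` is pairwise inequivalent.  Apply `hdep` to `y i = Φ i (x i.1)`, `y' i = Φ i (x' i.1)`;
    get `a, a', z0`; `z` with `e (sh z) = z0`; then `Φ i (loc z) = Φ i (a x + a' x')` for `i ∈ I`.
-/

set_option autoImplicit false

noncomputable section

namespace Fermat.Agent.S55

open Module

variable {p : ℕ} [Fact p.Prime]

namespace Datum

variable (𝒜 : Datum p)

/-- the conjugate `γ D_v γ⁻¹` of the local group. -/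
def cj (i : 𝒜.ι × 𝒜.G) : Subgroup 𝒜.G := (𝒜.D i.1).map (MulAut.conj i.2).toMonoidHom

/-- `(v,γ)` and `(v',γ')` define the same "place of `Fix N`": `v = v'`, `γ' ∈ N γ D_v`. -/
def SameOrb (N : Subgroup 𝒜.G) (i j : 𝒜.ι × 𝒜.G) : Prop :=
  i.1 = j.1 ∧ ∃ u ∈ N, ∃ d ∈ 𝒜.cj i, j.2 = u * d * i.2

theorem sub_le (V : Subgroup 𝒜.G) (U : Subgroup ↥V) (h : (𝒜.L.sub V).IsOpen U) :
    (𝒜.Lloc.sub V).IsOpen U := by
  obtain ⟨U0, hU0, hle⟩ := h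
  exact ⟨U0, 𝒜.le U0 hU0, hle⟩

/-- localisation `H²(N, L; m) → H²(γ D_v γ⁻¹ ⊓ N, Lloc; m)`. -/
def locSub (N : Subgroup 𝒜.G) (m : Representation (ZMod p) 𝒜.G (ZMod p)) (i : 𝒜.ι × 𝒜.G) :
    Pair (𝒜.L.sub N) (rsub m N) (𝒜.Lloc.sub (𝒜.cj i ⊓ N)) (rsub m (𝒜.cj i ⊓ N)) :=
  (Pair.resLE 𝒜.Lloc m (inf_le_right : 𝒜.cj i ⊓ N ≤ N)).comp (Pair.infl (𝒜.sub_le N) (rsub m N))

namespace Abs

/-! ### linear algebra -/

theorem finrank_sub_le_one {k V W : Type} [Field k] [AddCommGroup V] [Module k V]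
    [AddCommGroup W] [Module k W] (f : V →ₗ[k] W)
    (key : ∀ x x' : W, ∃ a a' : k, (a ≠ 0 ∨ a' ≠ 0) ∧ ∃ z, f z = a • x + a' • x') :
    (finrank k W : ℤ) - (finrank k ↥(LinearMap.range f) : ℤ) ≤ 1 := by
  by_cases hP : Module.Finite k W
  · have h1 := (finrank_le_one_of_dependent (k := k) (V := W ⧸ LinearMap.range f) (by
        intro X X'
        obtain ⟨x, rfl⟩ := Submodule.mkQ_surjective _ X
        obtain ⟨x', rfl⟩ := Submodule.mkQ_surjective _ X'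
        obtain ⟨a, a', haa, z, hz⟩ := key x x'
        refine ⟨a, a', haa, ?_⟩
        rw [← map_smul, ← map_smul, ← map_add, ← hz, Submodule.mkQ_apply,
          Submodule.Quotient.mk_eq_zero]
        exact LinearMap.mem_range_self _ z)).2
    have h2 := Submodule.finrank_quotient_add_finrank (LinearMap.range f)
    omega
  · rw [Module.finrank_of_not_finite hP]
    have := Int.natCast_nonneg (finrank k ↥(LinearMap.range f))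
    push_cast
    omega

theorem finrank_sub_le_one_pi {k V ι : Type} {W : ι → Type} [Field k] [AddCommGroup V]
    [Module k V] [∀ v, AddCommGroup (W v)] [∀ v, Module k (W v)] (f : V →ₗ[k] ∀ v, W v)
    (key : ∀ x x' : ∀ v, W v, ∃ a a' : k, (a ≠ 0 ∨ a' ≠ 0) ∧ ∃ z, f z = a • x + a' • x') :
    (finrank k (∀ v, W v) : ℤ) - (finrank k ↥(LinearMap.range f) : ℤ) ≤ 1 :=
  finrank_sub_le_one f key

/-! ### group theory -/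

section grp
variable {G : Type} [Group G]

/-- stabilisers in `G ⧸ N`, `N` normal. -/
theorem mem_iff_smul (N : Subgroup G) [hN : N.Normal] (g u : G) :
    u ∈ N ↔ u • (g • ((1 : G) : G ⧸ N)) = g • ((1 : G) : G ⧸ N) := by
  rw [← inv_smul_eq_iff, ← mul_smul, ← mul_smul, ← mem_iff_smul_coe_one, hN.mem_comm_iff,
    mul_inv_cancel_left]

/-- representatives of the `D`-orbits on `G ⧸ N`. -/
theorem exists_reps (D N : Subgroup G) [Finite (G ⧸ N)] :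
    ∃ (J : Type) (_ : Finite J) (γ : J → G),
      ∀ w : G ⧸ N, ∃! j, ∃ d ∈ D, d • ((γ j)⁻¹ • ((1 : G) : G ⧸ N)) = w := by
  have hout : ∀ w : G ⧸ N, ((w.out)⁻¹)⁻¹ • ((1 : G) : G ⧸ N) = w := by
    intro w
    rw [inv_inv]
    change (((w.out * 1 : G)) : G ⧸ N) = w
    rw [mul_one]
    exact QuotientGroup.out_eq' w
  refine ⟨MulAction.orbitRel.Quotient D (G ⧸ N), inferInstance,
    fun j => ((Quotient.out j : G ⧸ N).out)⁻¹, fun w => ?_⟩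
  simp only [hout]
  refine ⟨Quotient.mk'' w, ?_, ?_⟩
  · have h1 : (MulAction.orbitRel D (G ⧸ N)) (Quotient.out (Quotient.mk'' w :
        MulAction.orbitRel.Quotient D (G ⧸ N))) w := Quotient.mk_out (s := MulAction.orbitRel D (G ⧸ N)) w
    rw [MulAction.orbitRel_apply] at h1
    obtain ⟨d, hd⟩ := h1
    refine ⟨(d : G)⁻¹, D.inv_mem d.2, ?_⟩
    rw [inv_smul_eq_iff]
    exact hd.symm
  · rintro j ⟨d, hd, hj⟩
    rw [← Quotient.out_eq j]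
    apply Quotient.sound
    change (MulAction.orbitRel D (G ⧸ N)) _ _
    rw [MulAction.orbitRel_apply]
    refine ⟨⟨d, hd⟩⁻¹, ?_⟩
    rw [inv_smul_eq_iff]
    exact hj.symm

theorem mem_conj_iff (D : Subgroup G) (γ u : G) :
    u ∈ D.map (MulAut.conj γ).toMonoidHom ↔ γ⁻¹ * u * γ⁻¹⁻¹ ∈ D := by
  rw [Subgroup.mem_map_equiv, MulAut.conj_symm_apply, inv_inv]

theorem mem_conj_inf_iff (D N : Subgroup G) [hN : N.Normal] (γ u : G) :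
    u ∈ D.map (MulAut.conj γ).toMonoidHom ⊓ N ↔ γ⁻¹ * u * γ⁻¹⁻¹ ∈ D ⊓ N := by
  rw [Subgroup.mem_inf, Subgroup.mem_inf, mem_conj_iff]
  refine and_congr Iff.rfl ?_
  rw [hN.mem_comm_iff, ← mul_assoc, inv_inv, mul_inv_cancel, one_mul]

end grp

/-! ### the maps `Φ i` -/

variable {𝒜}
variable (N : Subgroup 𝒜.G) [hNn : N.Normal] (m : Representation (ZMod p) 𝒜.G (ZMod p))
  (hm : ∀ n ∈ N, ∀ x, m n x = x)

/-- the coefficient isomorphism `triv → m` over a subgroup of `N`. -/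
def cf (L : Levels 𝒜.G) (W : Subgroup 𝒜.G) (hW : W ≤ N) :
    Pair (L.sub W) (rsub 𝒜.triv W) (L.sub W) (rsub m W) :=
  Pair.coeff (L.sub W) (LinearEquiv.refl (ZMod p) (ZMod p)).toLinearMap
    (fun h x => (hm h (hW h.2) x).symm)

omit hNn in
theorem cf_bijective (L : Levels 𝒜.G) (W : Subgroup 𝒜.G) (hW : W ≤ N) :
    Function.Bijective (cf N m hm L W hW).map2 :=
  (Pair.isDense_coeff (L.sub W) (ρ := rsub 𝒜.triv W) (σ := rsub m W)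
    (LinearEquiv.refl (ZMod p) (ZMod p)) (fun h x => (hm h (hW h.2) x).symm)).bijective2

/-- conjugation `H²(D_v ⊓ N) → H²(γ D_v γ⁻¹ ⊓ N)`. -/
def cjP (i : 𝒜.ι × 𝒜.G) :
    Pair (𝒜.Lloc.sub (𝒜.D i.1 ⊓ N)) (rsub 𝒜.triv (𝒜.D i.1 ⊓ N))
      (𝒜.Lloc.sub (𝒜.cj i ⊓ N)) (rsub 𝒜.triv (𝒜.cj i ⊓ N)) :=
  Pair.conj 𝒜.Lloc 𝒜.triv i.2⁻¹ (fun u hu => (mem_conj_inf_iff (𝒜.D i.1) N i.2 u).1 hu)

theorem cjP_bijective (i : 𝒜.ι × 𝒜.G) : Function.Bijective (cjP N i).map2 :=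
  (Pair.isDense_conj 𝒜.Lloc 𝒜.triv i.2⁻¹ (mem_conj_inf_iff (𝒜.D i.1) N i.2)).bijective2

/-- evaluation at `γ⁻¹ N`. -/
def evP (i : 𝒜.ι × 𝒜.G) :
    Pair (𝒜.Lv i.1) (rsub (Fun 𝒜.triv (𝒜.G ⧸ N)) (𝒜.D i.1))
      (𝒜.Lloc.sub (𝒜.D i.1 ⊓ N)) (rsub 𝒜.triv (𝒜.D i.1 ⊓ N)) :=
  Pair.evSub 𝒜.Lloc 𝒜.triv (𝒜.G ⧸ N) (𝒜.D i.1) (𝒜.D i.1 ⊓ N) inf_le_left
    (i.2⁻¹ • ((1 : 𝒜.G) : 𝒜.G ⧸ N)) (fun u hu => (mem_iff_smul N i.2⁻¹ u).1 hu.2)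

/-- `Φ i`. -/
def Phi (i : 𝒜.ι × 𝒜.G) :
    H2 (𝒜.Lv i.1) (rsub (Fun 𝒜.triv (𝒜.G ⧸ N)) (𝒜.D i.1)) →ₗ[ZMod p]
      H2 (𝒜.Lloc.sub (𝒜.cj i ⊓ N)) (rsub m (𝒜.cj i ⊓ N)) :=
  (cf N m hm 𝒜.Lloc (𝒜.cj i ⊓ N) inf_le_right).map2 ∘ₗ (cjP N i).map2 ∘ₗ (evP N i).map2

/-- (1) -/
theorem Phi_loc (hN : 𝒜.L.IsOpen N) (i : 𝒜.ι × 𝒜.G) (z : H2 𝒜.L (Fun 𝒜.triv (𝒜.G ⧸ N))) :
    Phi N m hm i ((𝒜.loc i.1 (Fun 𝒜.triv (𝒜.G ⧸ N))).map2 z) =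
      (𝒜.locSub N m i).map2 ((cf N m hm 𝒜.L N le_rfl).map2 ((Pair.sh 𝒜.L 𝒜.triv N).map2 z)) := by
  have : Finite (𝒜.G ⧸ N) := 𝒜.L.finite_quotient hN
  have : 𝒜.Lloc.SmoothSet (𝒜.G ⧸ N) := 𝒜.Lloc.smoothSet_quotient' (𝒜.le N hN)
  have h1 : (evP N i).map2 ((𝒜.loc i.1 (Fun 𝒜.triv (𝒜.G ⧸ N))).map2 z) =
      (Pair.ev 𝒜.Lloc 𝒜.triv (𝒜.G ⧸ N) (𝒜.D i.1 ⊓ N) (i.2⁻¹ • ((1 : 𝒜.G) : 𝒜.G ⧸ N))
        (fun u hu => (mem_iff_smul N i.2⁻¹ u).1 hu.2)).map2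
        ((Pair.infl 𝒜.le (Fun 𝒜.triv (𝒜.G ⧸ N))).map2 z) := by
    rw [← LinearMap.comp_apply, ← LinearMap.comp_apply, ← Pair.map2_comp, ← Pair.map2_comp]
    exact congrFun (congrArg DFunLike.coe (Pair.map2_congr rfl rfl)) z
  have h2 := conj_ev2 𝒜.Lloc 𝒜.triv (𝒜.G ⧸ N) i.2⁻¹ (V := 𝒜.D i.1 ⊓ N) (V' := 𝒜.cj i ⊓ N)
    (fun u hu => (mem_conj_inf_iff (𝒜.D i.1) N i.2 u).1 hu) ((1 : 𝒜.G) : 𝒜.G ⧸ N)
    (fun u hu => (mem_iff_smul N i.2⁻¹ u).1 hu.2)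
    (fun u hu => (mem_iff_smul_coe_one N u).1 hu.2)
    ((Pair.infl 𝒜.le (Fun 𝒜.triv (𝒜.G ⧸ N))).map2 z)
  rw [Phi, LinearMap.comp_apply, LinearMap.comp_apply, h1]
  refine (congrArg _ h2).trans ?_
  rw [← LinearMap.comp_apply, ← LinearMap.comp_apply, ← LinearMap.comp_apply,
    ← LinearMap.comp_apply, ← Pair.map2_comp, ← Pair.map2_comp, ← Pair.map2_comp,
    ← Pair.map2_comp]
  exact congrFun (congrArg DFunLike.coe (Pair.map2_congr rfl rfl)) z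

omit hNn in
/-- (2) -/
theorem cf_sh_surjective (hN : 𝒜.L.IsOpen N) (z0 : H2 (𝒜.L.sub N) (rsub m N)) :
    ∃ z : H2 𝒜.L (Fun 𝒜.triv (𝒜.G ⧸ N)),
      (cf N m hm 𝒜.L N le_rfl).map2 ((Pair.sh 𝒜.L 𝒜.triv N).map2 z) = z0 := by
  obtain ⟨z1, rfl⟩ := (cf_bijective N m hm 𝒜.L N le_rfl).2 z0
  obtain ⟨z, rfl⟩ := (sh_bijective2 𝒜.L 𝒜.triv N hN).2 z1
  exact ⟨z, rfl⟩

/-- (3) -/
theorem eq_of_Phi_eq (hN : 𝒜.L.IsOpen N) (v : 𝒜.ι) {J : Type} [Finite J] (γ : J → 𝒜.G)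
    (hγ : ∀ w : 𝒜.G ⧸ N, ∃! j, ∃ d ∈ 𝒜.D v, d • ((γ j)⁻¹ • ((1 : 𝒜.G) : 𝒜.G ⧸ N)) = w)
    (x x' : H2 (𝒜.Lv v) (rsub (Fun 𝒜.triv (𝒜.G ⧸ N)) (𝒜.D v)))
    (h : ∀ j, Phi N m hm (v, γ j) x = Phi N m hm (v, γ j) x') : x = x' := by
  have : Finite (𝒜.G ⧸ N) := 𝒜.L.finite_quotient hN
  have : 𝒜.Lloc.SmoothSet (𝒜.G ⧸ N) := 𝒜.Lloc.smoothSet_quotient' (𝒜.le N hN)
  have hb := evSub_pi_bijective2 𝒜.Lloc 𝒜.triv (𝒜.G ⧸ N) (𝒜.D v)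
    (fun j => (γ j)⁻¹ • ((1 : 𝒜.G) : 𝒜.G ⧸ N)) (fun _ => 𝒜.D v ⊓ N)
    (fun j u => by rw [Subgroup.mem_inf, mem_iff_smul N (γ j)⁻¹ u]) hγ
  apply hb.1
  funext j
  exact (cjP_bijective N (v, γ j)).1 ((cf_bijective N m hm 𝒜.Lloc _ inf_le_right).1 (h j))

end Abs

theorem c_Fun_le_one (N : Subgroup 𝒜.G) [N.Normal] (hN : 𝒜.L.IsOpen N)
    (m : Representation (ZMod p) 𝒜.G (ZMod p)) (hm : ∀ n ∈ N, ∀ x, m n x = x)
    (hdep : ∀ I : Finset (𝒜.ι × 𝒜.G), (∀ i ∈ I, ∀ j ∈ I, 𝒜.SameOrb N i j → i = j) →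
      ∀ y y' : ∀ i : 𝒜.ι × 𝒜.G, H2 (𝒜.Lloc.sub (𝒜.cj i ⊓ N)) (rsub m (𝒜.cj i ⊓ N)),
      ∃ a a' : ZMod p, (a ≠ 0 ∨ a' ≠ 0) ∧ ∃ z0 : H2 (𝒜.L.sub N) (rsub m N),
        ∀ i ∈ I, (𝒜.locSub N m i).map2 z0 = a • y i + a' • y' i) :
    𝒜.c (Fun 𝒜.triv (𝒜.G ⧸ N)) ≤ 1 := by
  have hfin : Finite (𝒜.G ⧸ N) := 𝒜.L.finite_quotient hN
  -- the key dependence statement
  have key : ∀ x x' : 𝒜.P2 (Fun 𝒜.triv (𝒜.G ⧸ N)), ∃ a a' : ZMod p, (a ≠ 0 ∨ a' ≠ 0) ∧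
      ∃ z, 𝒜.loc2 (Fun 𝒜.triv (𝒜.G ⧸ N)) z = a • x + a' • x' := by
    intro x x'
    choose J hJ γ hγ using fun v : 𝒜.ι => Abs.exists_reps (𝒜.D v) N
    let F : (Σ v, J v) → 𝒜.ι × 𝒜.G := fun s => (s.1, γ s.1 s.2)
    have hI : ∀ i ∈ (Set.finite_range F).toFinset, ∀ j ∈ (Set.finite_range F).toFinset,
        𝒜.SameOrb N i j → i = j := by
      intro i hi j hj hij
      rw [Set.Finite.mem_toFinset] at hi hj
      obtain ⟨⟨v, a⟩, rfl⟩ := hi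
      obtain ⟨⟨v', b⟩, rfl⟩ := hj
      obtain ⟨hv, u, hu, d, hd, hb⟩ := hij
      change v = v' at hv
      subst hv
      change γ v b = u * d * γ v a at hb
      obtain ⟨δ, hδ, rfl⟩ := hd
      have hab : a = b := by
        refine (hγ v ((γ v b)⁻¹ • ((1 : 𝒜.G) : 𝒜.G ⧸ N))).unique ⟨δ⁻¹, (𝒜.D v).inv_mem hδ, ?_⟩
          ⟨1, (𝒜.D v).one_mem, one_smul _ _⟩
        have h1 : (γ v b)⁻¹ = δ⁻¹ * (γ v a)⁻¹ * u⁻¹ := by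
          rw [hb]
          change (u * (γ v a * δ * (γ v a)⁻¹) * γ v a)⁻¹ = _
          group
        rw [h1, mul_smul, mul_smul, (mem_iff_smul_coe_one N u⁻¹).1 (N.inv_mem hu)]
      rw [hab]
    obtain ⟨a, a', haa, z0, hz0⟩ := hdep _ hI (fun i => Abs.Phi N m hm i (x i.1))
      (fun i => Abs.Phi N m hm i (x' i.1))
    obtain ⟨z, rfl⟩ := Abs.cf_sh_surjective N m hm hN z0
    refine ⟨a, a', haa, z, ?_⟩
    funext v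
    apply Abs.eq_of_Phi_eq N m hm hN v (γ v) (hγ v)
    intro j
    have h1 := hz0 (v, γ v j) ((Set.Finite.mem_toFinset _).2 ⟨⟨v, j⟩, rfl⟩)
    rw [← Abs.Phi_loc N m hm hN] at h1
    refine h1.trans ?_
    rw [Pi.add_apply, Pi.smul_apply, Pi.smul_apply, map_add, map_smul, map_smul]
  have h := Abs.finrank_sub_le_one_pi (k := ZMod p) (V := H2 𝒜.L (Fun 𝒜.triv (𝒜.G ⧸ N)))
    (ι := 𝒜.ι) (W := fun v => H2 (𝒜.Lv v) (rsub (Fun 𝒜.triv (𝒜.G ⧸ N)) (𝒜.D v)))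
    (𝒜.loc2 (Fun 𝒜.triv (𝒜.G ⧸ N))) key
  exact h

end Datum

end Fermat.Agent.S55

end
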