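import Fermat.Agent.S55.G.PlacesAbove

/-!
# S55 / [B] (E2): valuations of norms, Galois action on the places above `v`
TASK S55/B-BT-AlphaVal.

Abstract number fields, language of `G/Defs.lean`, tools of `G/PlacesAbove.lean`.
-/

set_option autoImplicit false

open IsDedekindDomain NumberField Module

namespace Fermat.Agent.S55.G

noncomputable section

set_option linter.unusedSectionVars false

variable {L : Type} [Field L] [NumberField L]

variable (K : Type) [Field K] [NumberField K] [Algebra K L]

/-- (V) [`Algebra.norm_eq_prod_automorphisms`, `map_prod`] -/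
theorem val_norm_eq_prod [IsGalois K L] (w : Pl L) (y : L) :
    w.valuation L (algebraMap K L (Algebra.norm K y)) = ∏ σ : L ≃ₐ[K] L, w.valuation L (σ y) := by
  rw [Algebra.norm_eq_prod_automorphisms, map_prod]

/-- a place is determined by its valuation (auxiliary copy, used before `place_ext`). -/
theorem place_ext_aux {w w' : Pl L} (h : ∀ y : L, w.valuation L y = w'.valuation L y) : w = w' := by
  apply HeightOneSpectrum.ext
  ext x
  rw [← HeightOneSpectrum.valuation_lt_one_iff_mem (K := L),
    ← HeightOneSpectrum.valuation_lt_one_iff_mem (K := L), h]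

/-- (O1) at a nonsplit place all `w ∘ σ` are equal to `w`.  [`exists_place_smul`] -/
theorem val_map_of_nonsplit {v : Pl K} (hv : Nonsplit K L v) {w : Pl L}
    (hw : w.asIdeal.LiesOver v.asIdeal) (σ : L ≃ₐ[K] L) (y : L) :
    w.valuation L (σ y) = w.valuation L y := by
  obtain ⟨w', h1, h2⟩ := exists_place_smul K L σ w
  have : w' = w := hv w' w (h2 v hw) hw
  rw [← h1, this]

/-- (O2) at a split place (degree `p`) the Galois group acts simply transitively on the places above
`v`.  [existence: `exists_place_conj`.  uniqueness: `σ ↦ w ∘ σ` (`exists_place_smul`; a place is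
determined by its valuation) is a surjection from a set with `p` elements
(`IsGalois.card_aut_eq_finrank`) onto `above K L {v}`, which has `p` elements
(`ncard_above_singleton`), so it is injective.] -/
theorem existsUnique_conj_of_split {p : ℕ} [Fact p.Prime] [IsGalois K L] (hdeg : finrank K L = p)
    {v : Pl K} (hv : ¬ Nonsplit K L v) {w w₀ : Pl L} (hw : w.asIdeal.LiesOver v.asIdeal)
    (hw₀ : w₀.asIdeal.LiesOver v.asIdeal) :
    ∃! σ : L ≃ₐ[K] L, ∀ y : L, w.valuation L (σ y) = w₀.valuation L y := by
  choose W hW1 hW2 using fun σ : L ≃ₐ[K] L => exists_place_smul K L σ w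
  let Φ : (L ≃ₐ[K] L) → above K L {v} := fun σ => ⟨W σ, v, rfl, hW2 σ v hw⟩
  have hsurj : Function.Surjective Φ := by
    rintro ⟨w', v', rfl, hw'⟩
    obtain ⟨σ, hσ⟩ := exists_place_conj K L v' w w' hw hw'
    exact ⟨σ, Subtype.ext (place_ext_aux fun y => by rw [hW1, hσ])⟩
  have hcard : Nat.card (above K L {v}) = p := by
    rcases ncard_above_singleton p K L hdeg v with h | h
    · exact absurd h.1 hv
    · rw [Nat.card_coe_set_eq]; exact h.2
  have hcard' : Nat.card (L ≃ₐ[K] L) = p := by rw [IsGalois.card_aut_eq_finrank, hdeg]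
  have hbij : Function.Bijective Φ :=
    hsurj.bijective_of_nat_card_le (by rw [hcard, hcard'])
  obtain ⟨σ, hσ⟩ := exists_place_conj K L v w w₀ hw hw₀
  refine ⟨σ, fun y => (hσ y).symm, fun τ hτ => ?_⟩
  apply hbij.1
  exact Subtype.ext (place_ext_aux fun y => by rw [hW1, hW1, hτ, hσ])

/-- a place is determined by its valuation. -/
theorem place_ext {w w' : Pl L} (h : ∀ y : L, w.valuation L y = w'.valuation L y) : w = w' :=
  place_ext_aux h

end

end Fermat.Agent.S55.G
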