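import Fermat.Agent.S55.B.BT.AlphaDiv
import Fermat.Agent.S55.B.BT.AlphaVal
import Fermat.Agent.S55.G.ValOrd

/-!
# S55 / [B] (E2): the element `α` (abstract number fields)
TASK S55/B-BT-AlphaAbs.

`L/K` Galois of degree `p`, `T` a set of places of `K`, `b ∈ K^×` such that `ord_w(b) ∈ p ℤ` for the
place `w` above every nonsplit `v ∉ T`.
CLAIM: there are `a`, `N0 ≡ 1 (p)` and `α ∈ L^×` with `ord_w(α) ∈ p^a ℤ` and
`ord_w(N_{L/K} α) = N0 p^a ord_w(b)` for all `w` not above `T`.

PROOF.  `n w ∈ ℤ` with `w(b) = exp (- n w)`; it is `0` outside a finite set (`finite_support` for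
`algebraMap b`) and `n (w ∘ σ) = n w`.  For `v : Pl K` choose `W v` above `v` (`exists_above`); for `w : Pl L` let
`V w` be the place below (`exists_under`).  Divisor
 `e w = 0` if `V w ∈ T` or `w ≠ W (V w)`;  `e w = n w / p` if `V w` is nonsplit;  `e w = n w` otherwise.
`exists_of_divisor`: `h`, `α₀` with `w(α₀) = exp (- h e w)`.
For `w` not above `T`, `v = V w`: `w(N α₀) = ∏_σ w(σ α₀)` (`val_norm_eq_prod`);
 * nonsplit: `w = W v`, all factors are `w(α₀)` (`val_map_of_nonsplit`), `p` factors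
   (`IsGalois.card_aut_eq_finrank`): `exp (- h p (n w / p)) = w(b)^h`;
 * split: `σ₀` the unique `σ` with `w ∘ σ = W v` (`existsUnique_conj_of_split`): its factor is
   `exp (- h n (W v)) = exp (- h n w)`; for `σ ≠ σ₀`, `w ∘ σ` is a place `w'` above `v`
   (`exists_place_smul`), `w' ≠ W v`, so `e w' = 0` and the factor is `1`.
So `w(N α₀) = w(b)^h`.  Write `h = N0' p^a`, `p ∤ N0'` (`Nat.exists_eq_pow_mul_and_not_dvd`), `t` with `N0' t ≡ 1 (p)`,
`α = α₀^t`, `N0 = N0' t`.  `w(α) = exp (- N0 e w)^(p^a)`, and `exp (- N0 e w) = w(π^(N0 e w))`, `π` a uniformiser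
(`HeightOneSpectrum.valuation_exists_uniformizer`).
-/

set_option autoImplicit false

open IsDedekindDomain NumberField Module

namespace Fermat.Agent.S55.G

noncomputable section

set_option linter.unusedSectionVars false

variable {p : ℕ} [Fact p.Prime] (K : Type) [Field K] [NumberField K]
  (L : Type) [Field L] [NumberField L] [Algebra K L]

/-- the order of `y` at `w`. -/
def aaOrd (w : Pl L) (y : L) : ℤ := - WithZero.log (w.valuation L y)

theorem aa_val_eq (w : Pl L) {y : L} (hy : y ≠ 0) :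
    w.valuation L y = WithZero.exp (-(aaOrd L w y)) := by
  rw [aaOrd, neg_neg, WithZero.exp_log ((Valuation.ne_zero_iff _).2 hy)]

/-- the element `α₀` with its divisor and the valuations of its norm. -/
theorem aa_core [IsGalois K L] (hdeg : finrank K L = p) (T : Set (Pl K)) (b : Kˣ)
    (hb : ∀ v ∉ T, Nonsplit K L v → ∀ w : Pl L, w.asIdeal.LiesOver v.asIdeal →
      ∃ c : Lˣ, w.valuation L (algebraMap K L (b : K)) = w.valuation L (c : L) ^ p) :
    ∃ (h : ℕ) (e : Pl L → ℤ) (α₀ : Lˣ), 0 < h ∧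
      (∀ w : Pl L, w.valuation L (α₀ : L) = WithZero.exp (-((h : ℤ) * e w))) ∧
      ∀ w ∉ above K L T, w.valuation L (algebraMap K L (Algebra.norm K (α₀ : L))) =
        w.valuation L (algebraMap K L (b : K)) ^ h := by
  classical
  have hp := (Fact.out : p.Prime)
  obtain ⟨h, hh, hdiv⟩ := exists_of_divisor L
  choose W hW using exists_above K L
  choose V hV using exists_under K L
  obtain ⟨bL, hbL⟩ : ∃ bL : L, bL = algebraMap K L (b : K) := ⟨_, rfl⟩
  have hbL0 : bL ≠ 0 := by
    rw [hbL]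
    exact (map_ne_zero _).2 b.ne_zero
  have hn : ∀ w : Pl L, w.valuation L bL = WithZero.exp (-(aaOrd L w bL)) :=
    fun w => aa_val_eq L w hbL0
  obtain ⟨e, he⟩ : ∃ e : Pl L → ℤ, e = fun w => if V w ∈ T ∨ w ≠ W (V w) then 0 else
      if Nonsplit K L (V w) then aaOrd L w bL / p else aaOrd L w bL := ⟨_, rfl⟩
  have hfin : {w : Pl L | w.valuation L bL ≠ 1}.Finite := by
    have := finite_support L (Units.map (algebraMap K L : K →* L) b)
    rw [hbL]
    exact this
  have hsupp : ∀ w ∉ hfin.toFinset, e w = 0 := by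
    intro w hw
    rw [Set.Finite.mem_toFinset, Set.mem_ofPred_eq, not_not] at hw
    have hn0 : aaOrd L w bL = 0 := by
      have h1 := hn w
      rw [hw] at h1
      have h2 := WithZero.exp_eq_one.1 h1.symm
      omega
    rw [he]
    simp only [hn0]
    split_ifs <;> simp
  obtain ⟨α₀, hα₀⟩ := hdiv hfin.toFinset e hsupp
  refine ⟨h, e, α₀, hh, hα₀, fun w hw => ?_⟩
  have hvT : V w ∉ T := fun hT => hw ⟨V w, hT, hV w⟩
  rw [val_norm_eq_prod K w, ← hbL]
  by_cases hns : Nonsplit K L (V w)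
  · have hwW : w = W (V w) := hns _ _ (hV w) (hW _)
    have hew : e w = aaOrd L w bL / p := by
      rw [he]
      simp only
      rw [if_neg (by rw [not_or, not_not]; exact ⟨hvT, hwW⟩), if_pos hns]
    obtain ⟨c, hc⟩ := hb (V w) hvT hns w (hV w)
    have hpn : aaOrd L w bL = p * aaOrd L w c := by
      rw [← hbL, hn w, aa_val_eq L w c.ne_zero, ← WithZero.exp_nsmul, WithZero.exp_inj] at hc
      simp only [nsmul_eq_mul, mul_neg, neg_inj] at hc
      exact hc
    rw [Finset.prod_congr rfl (fun σ _ => val_map_of_nonsplit K hns (hV w) σ _),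
      Finset.prod_const, Finset.card_univ, ← Nat.card_eq_fintype_card,
      IsGalois.card_aut_eq_finrank, hdeg, hα₀, hew, hn w,
      ← WithZero.exp_nsmul, ← WithZero.exp_nsmul, WithZero.exp_inj, hpn,
      Int.mul_ediv_cancel_left _ (by exact_mod_cast hp.ne_zero)]
    simp only [nsmul_eq_mul]
    ring
  · obtain ⟨σ₀, hσ₀, huniq⟩ := existsUnique_conj_of_split K hdeg hns (hV w) (hW (V w))
    rw [Finset.prod_eq_single σ₀]
    · rw [hσ₀, hα₀]
      have hVW : V (W (V w)) = V w := under_unique K L _ _ _ (hV _) (hW _)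
      have heW : e (W (V w)) = aaOrd L (W (V w)) bL := by
        rw [he]
        simp only
        rw [hVW, if_neg (by rw [not_or, not_not]; exact ⟨hvT, rfl⟩), if_neg hns]
      have hnn : aaOrd L (W (V w)) bL = aaOrd L w bL := by
        have h1 := hσ₀ bL
        rw [hbL, σ₀.commutes, ← hbL, hn, hn, WithZero.exp_inj] at h1
        omega
      rw [heW, hnn, hn w, ← WithZero.exp_nsmul, WithZero.exp_inj]
      simp only [nsmul_eq_mul]
      ring
    · intro σ _ hσ
      obtain ⟨w', hw'1, hw'2⟩ := exists_place_smul K L σ w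
      have hw'v := hw'2 _ (hV w)
      have hVw' : V w' = V w := under_unique K L w' _ _ (hV w') hw'v
      have hne : w' ≠ W (V w) := by
        intro heq
        exact hσ (huniq σ (fun y => by rw [← hw'1, heq]))
      have hew' : e w' = 0 := by
        rw [he]
        simp only
        rw [hVw', if_pos (Or.inr hne)]
      rw [← hw'1, hα₀, hew']
      simp
    · intro h0
      exact absurd (Finset.mem_univ _) h0

theorem exists_alpha_abs [IsGalois K L] (hdeg : finrank K L = p) (T : Set (Pl K)) (b : Kˣ)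
    (hb : ∀ v ∉ T, Nonsplit K L v → ∀ w : Pl L, w.asIdeal.LiesOver v.asIdeal →
      ∃ c : Lˣ, w.valuation L (algebraMap K L (b : K)) = w.valuation L (c : L) ^ p) :
    ∃ (a N0 : ℕ) (α : Lˣ), N0 % p = 1 ∧
      (∀ w ∉ above K L T, ∃ c : Lˣ, w.valuation L (α : L) = w.valuation L (c : L) ^ (p ^ a)) ∧
      (∀ w ∉ above K L T, w.valuation L (algebraMap K L (Algebra.norm K (α : L))) =
        w.valuation L (algebraMap K L (b : K)) ^ (N0 * p ^ a)) := by
  obtain ⟨h, e, α₀, hh, hα₀, hnorm⟩ := aa_core K L hdeg T b hb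
  have hp := (Fact.out : p.Prime)
  obtain ⟨a, N0', hN0', hha⟩ := Nat.exists_eq_pow_mul_and_not_dvd hh.ne' p hp.ne_one
  have hcop : Nat.Coprime N0' p := ((Nat.Prime.coprime_iff_not_dvd hp).2 hN0').symm
  obtain ⟨t, -, ht⟩ := Nat.exists_mul_mod_eq_one_of_coprime hcop hp.one_lt
  refine ⟨a, N0' * t, α₀ ^ t, ht, fun w _ => ?_, fun w hw => ?_⟩
  · obtain ⟨π, hπ⟩ := w.valuation_exists_uniformizer L
    have hπ0 : π ≠ 0 := by
      rintro rfl
      rw [map_zero] at hπ
      exact WithZero.exp_ne_zero hπ.symm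
    refine ⟨(Units.mk0 π hπ0) ^ (((N0' * t : ℕ) : ℤ) * e w), ?_⟩
    rw [Units.val_pow_eq_pow_val, map_pow, hα₀, Units.val_zpow_eq_zpow_val, map_zpow₀,
      Units.val_mk0, hπ, ← WithZero.exp_zsmul, ← WithZero.exp_nsmul, ← WithZero.exp_nsmul,
      WithZero.exp_inj, hha]
    simp only [nsmul_eq_mul, smul_eq_mul]
    push_cast
    ring
  · rw [Units.val_pow_eq_pow_val, map_pow, map_pow, map_pow, hnorm w hw, ← pow_mul, hha]
    congr 1
    ring

end

end Fermat.Agent.S55.G
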