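import Fermat.Agent.S55.G.PlacesAbove
import Fermat.Agent.S55.G.Units

/-!
# S55 / [B] (E2): `h · Div(L)` consists of principal divisors
TASK S55/B-BT-AlphaDiv.

Abstract number fields, language of `G/Defs.lean` (`Pl L = HeightOneSpectrum (𝓞 L)`).
-/

set_option autoImplicit false

open IsDedekindDomain NumberField Module

namespace Fermat.Agent.S55.G

noncomputable section

set_option linter.unusedSectionVars false

variable (L : Type) [Field L] [NumberField L]

/-- with `h` the class number: `w^h` is principal, generated by `x`. -/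
theorem exists_uniform_generator :
    ∃ h : ℕ, 0 < h ∧ ∀ w : Pl L, ∃ x : Lˣ, w.valuation L (x : L) = WithZero.exp (-(h : ℤ)) ∧
      ∀ w' : Pl L, w' ≠ w → w'.valuation L (x : L) = 1 := by
  classical
  set h := Fintype.card (ClassGroup (𝓞 L)) with hh
  have hpos : 0 < h := Fintype.card_pos
  refine ⟨h, hpos, fun v => ?_⟩
  have hv0 : v.asIdeal ∈ nonZeroDivisors (Ideal (𝓞 L)) := mem_nonZeroDivisors_of_ne_zero v.ne_bot
  have h1 : ClassGroup.mk0 (⟨v.asIdeal, hv0⟩ : nonZeroDivisors (Ideal (𝓞 L))) ^ h = 1 :=
    pow_card_eq_one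
  rw [← map_pow] at h1
  have h2 : (v.asIdeal ^ h).IsPrincipal := by
    exact (ClassGroup.mk0_eq_one_iff (pow_mem hv0 h)).mp h1
  obtain ⟨a, ha⟩ := h2.principal
  have ha' : v.asIdeal ^ h = Ideal.span {a} := ha
  have ha0 : a ≠ 0 := by
    rintro rfl
    rw [Submodule.span_zero_singleton] at ha
    exact v.ne_bot (pow_eq_zero_iff hpos.ne' |>.mp ha)
  have haK : (algebraMap (𝓞 L) L a) ≠ 0 := by
    simpa using ha0
  refine ⟨Units.mk0 _ haK, ?_, ?_⟩
  · rw [Units.val_mk0, HeightOneSpectrum.valuation_of_algebraMap,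
      HeightOneSpectrum.intValuation_if_neg _ ha0, ← ha', Associates.mk_pow,
      Associates.count_pow (Associates.mk_ne_zero.2 v.ne_bot) v.associates_irreducible,
      Associates.count_self v.associates_irreducible]
    simp
  · intro v' hv'
    rw [Units.val_mk0, HeightOneSpectrum.valuation_eq_one_iff_notMem]
    intro hmem
    apply hv'
    have hle : v.asIdeal ^ h ≤ v'.asIdeal := by
      rw [ha, Ideal.submodule_span_eq, Ideal.span_singleton_le_iff_mem]
      exact hmem
    have hle' : v.asIdeal ≤ v'.asIdeal := v'.isPrime.le_of_pow_le hle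
    exact HeightOneSpectrum.ext (v.isMaximal.eq_of_le v'.isPrime.ne_top hle').symm

/-- (D) every divisor divisible by `h` is principal. -/
theorem exists_of_divisor :
    ∃ h : ℕ, 0 < h ∧ ∀ (s : Finset (Pl L)) (e : Pl L → ℤ), (∀ w ∉ s, e w = 0) →
      ∃ α₀ : Lˣ, ∀ w : Pl L, w.valuation L (α₀ : L) = WithZero.exp (-((h : ℤ) * e w)) := by
  classical
  obtain ⟨h, hpos, hx⟩ := exists_uniform_generator L
  choose x hx1 hx2 using hx
  refine ⟨h, hpos, fun s => ?_⟩
  induction s using Finset.induction_on with
  | empty =>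
    intro e he
    refine ⟨1, fun w => ?_⟩
    rw [he w (Finset.notMem_empty w)]
    simp
  | insert v s hv ih =>
    intro e he
    obtain ⟨α, hα⟩ := ih (Function.update e v 0) (fun w hw => by
      by_cases hwv : w = v
      · subst hwv; simp
      · rw [Function.update_of_ne hwv]
        exact he w (fun h' => (Finset.mem_insert.mp h').elim hwv hw))
    refine ⟨α * x v ^ e v, fun w => ?_⟩
    rw [Units.val_mul, map_mul, hα, Units.val_zpow_eq_zpow_val, map_zpow₀]
    by_cases hwv : w = v
    · subst hwv
      rw [Function.update_self, hx1, ← WithZero.exp_zsmul]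
      simp [mul_comm]
    · rw [Function.update_of_ne hwv, hx2 v w hwv]
      simp

end

end Fermat.Agent.S55.G
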