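import Fermat.Agent.S55.Arith.Kummer
import Fermat.Agent.S55.G.BridgeDefs
import Fermat.Agent.S55.L.Cyc
import Fermat.Agent.S55.Places.Transitive

/-!
# S55 / [B] (bt): shared definitions (sorry-free)
-/

set_option autoImplicit false

noncomputable section

namespace Fermat.Agent.S55

open Places ExtCitation

/-- a nonzero element of `Fix V` as an invariant of `Gm`. -/
def gmOf (V : Subgroup GQ) (b : Qbar) (hb : b ∈ Places.Fix V) (hb0 : b ≠ 0) : ↥(H0 (rsub Gm V)) :=
  ⟨Additive.ofMul (Units.mk0 b hb0), (mem_H0_Gm_iff V _).2 hb⟩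

@[simp] theorem gmOf_coe (V : Subgroup GQ) (b : Qbar) (hb : b ∈ Places.Fix V) (hb0 : b ≠ 0) :
    (((gmOf V b hb hb0 : ↥(H0 (rsub Gm V))) : Additive Qbarˣ).toMul : Qbar) = b := rfl

theorem LS_sub_le {S : Finset Nat.Primes} (V : Subgroup GQ) (U : Subgroup ↥V)
    (h : ((LS S).sub V).IsOpen U) : (Lall.sub V).IsOpen U := by
  obtain ⟨U0, hU0, hle⟩ := h
  exact ⟨U0, LS_le_Lall U0 hU0, hle⟩

theorem isLevel₁_of_LS {S : Finset Nat.Primes} {V : Subgroup GQ} {Y : Type} {f : ↥V → Y}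
    (h : ((LS S).sub V).IsLevel₁ f) : (Lall.sub V).IsLevel₁ f := by
  obtain ⟨U, hU, hf⟩ := h
  exact ⟨U, LS_sub_le V U hU, hf⟩

/-- the inertia group of the place `g • padicPlace l` fixes `x`, for all `l ∉ S`:
"`x ∈ ℚ_S`". -/
def InQS (S : Finset Nat.Primes) (x : Qbar) : Prop :=
  ∀ l : Nat.Primes, l ∉ S → ∀ g h : GQ,
    (haveI : Fact (l : ℕ).Prime := ⟨l.2⟩; h ∈ Iq (l : ℕ)) → (g * h * g⁻¹) x = x

/-- `x` is a unit at all places outside `S`. -/
def IsUnitOutside (S : Finset Nat.Primes) (x : Qbar) : Prop :=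
  ∀ l : Nat.Primes, l ∉ S → ∀ g : GQ, G.nrmg l g x = 1

/-! ### the smooth part of a representation -/

section smoothPart

variable {k : Type} [CommRing k] {H : Type} [Group H] {X : Type} [AddCommGroup X] [Module k X]

/-- the vectors fixed by an open subgroup. -/
def smoothPart (L : Levels H) (ρ : Representation k H X) : Submodule k X where
  carrier := {x | ∃ U : Subgroup H, L.IsOpen U ∧ ∀ s ∈ U, ρ s x = x}
  add_mem' := by
    rintro x y ⟨U, hU, h⟩ ⟨U', hU', h'⟩
    exact ⟨U ⊓ U', L.isOpen_inf hU hU', fun s hs => by rw [map_add, h s hs.1, h' s hs.2]⟩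
  zero_mem' := ⟨⊤, L.isOpen_top, fun _ _ => map_zero _⟩
  smul_mem' := by
    rintro c x ⟨U, hU, h⟩
    exact ⟨U, hU, fun s hs => by rw [map_smul, h s hs]⟩

theorem mem_smoothPart {L : Levels H} {ρ : Representation k H X} {x : X} :
    x ∈ smoothPart L ρ ↔ ∃ U : Subgroup H, L.IsOpen U ∧ ∀ s ∈ U, ρ s x = x := Iff.rfl

theorem smoothPart_stable (L : Levels H) (ρ : Representation k H X) (g : H) :
    smoothPart L ρ ≤ (smoothPart L ρ).comap (ρ g) := by
  rintro x ⟨U, hU, h⟩
  obtain ⟨N, hN, hNU, hNn, -⟩ := L.exists_normal hU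
  refine ⟨N, hN, fun s hs => ?_⟩
  have h1 : g⁻¹ * s * g ∈ N := by simpa using hNn.conj_mem s hs g⁻¹
  have h2 := h _ (hNU h1)
  calc ρ s (ρ g x) = ρ g (ρ (g⁻¹ * s * g) x) := by
        rw [← Module.End.mul_apply, ← Module.End.mul_apply, ← map_mul, ← map_mul]
        congr 2
        group
    _ = ρ g x := by rw [h2]

/-- the representation on the smooth part. -/
abbrev smRep (L : Levels H) (ρ : Representation k H X) : Representation k H ↥(smoothPart L ρ) :=
  ρ.subrepresentation (smoothPart L ρ) (smoothPart_stable L ρ)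

instance smooth_smRep (L : Levels H) (ρ : Representation k H X) : Smooth L (smRep L ρ) := by
  refine ⟨fun x => ?_⟩
  obtain ⟨U, hU, h⟩ := x.2
  exact ⟨U, hU, fun s hs => Subtype.ext (h s hs)⟩

end smoothPart

end Fermat.Agent.S55

end
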