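import Fermat.Agent.S55.B.BT.Defs
import Fermat.Agent.S55.G.BridgeTools
import Fermat.Agent.S55.Places.Loc1

/-!
# S55 / [B],[L]: the local datum of an open subgroup of a decomposition group `γ D_l γ⁻¹`
TASK S55/B-BT-LocDatum.

`W` open in `Dg l γ = γ D_l γ⁻¹`.  `locDatumG p l γ W hW : LocalDatum p ↥W (Lall.sub W)` extends
`gmDatum p W`; the only thing to prove is (Loc1).

PROOF of `loc1_Gm`.  `V' = V.map W.subtype`; `IsOpenIn W V'` (`isOpen_sub_iff` of Arith/Defs), so
`IsOpenIn (Dg l γ) V'` (`IsOpenIn.trans`); `V'' = V'.map (MulAut.conj γ⁻¹)` is open in `Dq l`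
(`IsOpenIn.conj`; `(Dg l γ).map (conj γ⁻¹) = Dq l`).
`H0 (rsub (rsub Gm W) V) = H0 (rsub Gm V')` (`LAux.H0_rsub_rsub`) `≃+ Additive (Fix V')ˣ`
(`mem_H0_Gm_iff`) `≃+ Additive (Fix V'')ˣ` (`x ↦ γ⁻¹ x`, `Fix_conj`).
For a commutative group `B` (written additively `Additive B`): `Nat.card (modP p (Additive B)) = (powMonoidHom p).range.index`,
`Nat.card (torP p (Additive B)) = Nat.card (powMonoidHom p).ker`.  `Places.loc1` for `V''`.
`locExp l p V'' = locN p l γ W * V.index`: `[D_l : V''] = [Dg l γ : V'] = [Dg l γ : W] [W : V']`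
(`Subgroup.relIndex_mul_relIndex`, `Subgroup.index_map_subtype`/`Subgroup.relIndex`, conjugation is an isomorphism).
-/

set_option autoImplicit false

noncomputable section

namespace Fermat.Agent.S55

open Places ExtCitation

variable (p : ℕ) [Fact p.Prime]

/-- local degree exponent: `[γ D_l γ⁻¹ : W]` if `l = p`, `0` otherwise. -/
def locN (l : Nat.Primes) (γ : GQ) (W : Subgroup GQ) : ℕ :=
  if (l : ℕ) = p then (W.subgroupOf (G.Dg l γ)).index else 0

omit [Fact p.Prime] in
theorem LocDatum.mem_range_iff {B G : Type} [AddCommGroup B] [CommGroup G]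
    (e : B ≃+ Additive G) (x : B) :
    x ∈ (nsmulAddMonoidHom (α := B) p).range ↔
      (e x).toMul ∈ (powMonoidHom p : G →* G).range := by
  constructor
  · rintro ⟨y, rfl⟩
    refine ⟨(e y).toMul, ?_⟩
    rw [powMonoidHom_apply, nsmulAddMonoidHom_apply, map_nsmul, toMul_nsmul]
  · rintro ⟨g, hg⟩
    refine ⟨e.symm (Additive.ofMul g), ?_⟩
    apply e.injective
    rw [nsmulAddMonoidHom_apply, map_nsmul, AddEquiv.apply_symm_apply]
    apply Additive.toMul.injective
    rw [← hg, toMul_nsmul, toMul_ofMul, powMonoidHom_apply]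

omit [Fact p.Prime] in
theorem LocDatum.card_modP {B G : Type} [AddCommGroup B] [CommGroup G] (e : B ≃+ Additive G) :
    Nat.card (modP p B) = (powMonoidHom p : G →* G).range.index := by
  refine Nat.card_congr (Quotient.congr (e.toEquiv.trans Additive.toMul) ?_)
  intro a b
  rw [QuotientAddGroup.leftRel_apply, QuotientGroup.leftRel_apply, LocDatum.mem_range_iff p e,
    map_add, map_neg]
  rfl

omit [Fact p.Prime] in
theorem LocDatum.card_torP {B G : Type} [AddCommGroup B] [CommGroup G] (e : B ≃+ Additive G) :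
    Nat.card ↥(torP p B) = Nat.card (powMonoidHom p : G →* G).ker := by
  refine Nat.card_congr (Equiv.subtypeEquiv (e.toEquiv.trans Additive.toMul) ?_)
  intro a
  rw [AddMonoidHom.mem_ker, MonoidHom.mem_ker, nsmulAddMonoidHom_apply, powMonoidHom_apply]
  show p • a = 0 ↔ (e a).toMul ^ p = 1
  rw [← toMul_nsmul, ← map_nsmul]
  constructor
  · intro h
    rw [h, map_zero]
    rfl
  · intro h
    apply e.injective
    rw [map_zero]
    exact Additive.toMul.injective h

/-- `H⁰(V, Gm)` is the unit group of the fixed field of `γ⁻¹ V γ`, via `x ↦ γ⁻¹ x`. -/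
def LocDatum.equiv (γ : GQ) (V' V'' : Subgroup GQ) (B : Submodule ℤ (Additive Qbarˣ))
    (hB : ∀ x : Additive Qbarˣ, x ∈ B ↔ ((x.toMul : Qbarˣ) : Qbar) ∈ Places.Fix V')
    (hfix : ∀ x : Qbar, x ∈ Places.Fix V'' ↔ γ x ∈ Places.Fix V') :
    ↥B ≃+ Additive (Places.Fix V'')ˣ where
  toFun c := Additive.ofMul (Units.mk0
    (⟨γ⁻¹ (((c : Additive Qbarˣ).toMul : Qbarˣ) : Qbar), (hfix _).2 (by
      rw [← AlgEquiv.mul_apply, mul_inv_cancel, AlgEquiv.one_apply]
      exact (hB _).1 c.2)⟩ : Places.Fix V'')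
    (by
      intro h
      have h1 := congrArg (Subtype.val : Places.Fix V'' → Qbar) h
      have h2 : γ⁻¹ (((c : Additive Qbarˣ).toMul : Qbarˣ) : Qbar) = 0 := h1
      rw [map_eq_zero] at h2
      exact (Units.ne_zero _) h2))
  invFun u := ⟨Additive.ofMul (Units.mk0 (γ (((u.toMul : (Places.Fix V'')ˣ) : Places.Fix V'') : Qbar))
    (by
      rw [Ne, map_eq_zero]
      intro h
      exact (u.toMul : (Places.Fix V'')ˣ).ne_zero (Subtype.ext h))),
    (hB _).2 ((hfix _).1 ((u.toMul : (Places.Fix V'')ˣ) : Places.Fix V'').2)⟩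
  left_inv c := by
    apply Subtype.ext
    apply Additive.toMul.injective
    apply Units.ext
    show γ (γ⁻¹ (((c : Additive Qbarˣ).toMul : Qbarˣ) : Qbar)) = _
    rw [← AlgEquiv.mul_apply, mul_inv_cancel, AlgEquiv.one_apply]
  right_inv u := by
    apply Additive.toMul.injective
    apply Units.ext
    apply Subtype.ext
    show γ⁻¹ (γ (((u.toMul : (Places.Fix V'')ˣ) : Places.Fix V'') : Qbar)) = _
    rw [← AlgEquiv.mul_apply, inv_mul_cancel, AlgEquiv.one_apply]
  map_add' c c' := by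
    apply Additive.toMul.injective
    apply Units.ext
    apply Subtype.ext
    show γ⁻¹ ((((c : Additive Qbarˣ).toMul : Qbarˣ) : Qbar) *
      (((c' : Additive Qbarˣ).toMul : Qbarˣ) : Qbar)) = _
    rw [map_mul]
    rfl

theorem LocDatum.map_conj_inv_conj (γ : GQ) (D : Subgroup GQ) :
    (D.map (MulAut.conj γ).toMonoidHom).map (MulAut.conj γ⁻¹).toMonoidHom = D := by
  rw [Subgroup.map_map]
  have : (MulAut.conj γ⁻¹).toMonoidHom.comp (MulAut.conj γ).toMonoidHom = MonoidHom.id GQ := by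
    ext1 x
    simp [mul_assoc]
  rw [this, Subgroup.map_id]

theorem loc1_Gm (l : Nat.Primes) (γ : GQ) (W : Subgroup GQ) (hW : IsOpenIn (G.Dg l γ) W)
    (V : Subgroup ↥W) (hV : (Lall.sub W).IsOpen V) :
    Nat.card (modP p ↥(H0 (rsub (rsub Gm W) V))) =
      p ^ (1 + locN p l γ W * V.index) * Nat.card ↥(torP p ↥(H0 (rsub (rsub Gm W) V))) := by
  have : Fact (l : ℕ).Prime := ⟨l.2⟩
  set V' : Subgroup GQ := V.map W.subtype with hV'
  set V'' : Subgroup GQ := V'.map (MulAut.conj γ⁻¹).toMonoidHom with hV''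
  have hVW : IsOpenIn W V' := isOpen_sub_iff.1 hV
  have hVD : IsOpenIn (G.Dg l γ) V' := hW.trans hVW
  have hVq : IsOpenIn (Dq (l : ℕ)) V'' := by
    have h := hVD.conj γ⁻¹
    unfold G.Dg at h
    rwa [LocDatum.map_conj_inv_conj] at h
  have hfix : ∀ x : Qbar, x ∈ Places.Fix V'' ↔ γ x ∈ Places.Fix V' := by
    intro x
    have h := Fix_conj V' γ⁻¹ x
    rwa [inv_inv] at h
  have hB : ∀ x : Additive Qbarˣ, x ∈ H0 (rsub (rsub Gm W) V) ↔
      ((x.toMul : Qbarˣ) : Qbar) ∈ Places.Fix V' := by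
    intro x
    rw [LAux.H0_rsub_rsub, mem_H0_Gm_iff]
  let e := LocDatum.equiv γ V' V'' (H0 (rsub (rsub Gm W) V)) hB hfix
  rw [LocDatum.card_modP p e, LocDatum.card_torP p e, Places.loc1 (Fact.out : p.Prime) hVq,
    mul_comm]
  congr 3
  unfold locExp locN
  split_ifs with h
  · have h1 : V''.relIndex (Dq (l : ℕ)) = V'.relIndex (G.Dg l γ) := by
      have h2 := Subgroup.relIndex_map_map_of_injective (f := (MulAut.conj γ⁻¹).toMonoidHom) V'
        (G.Dg l γ) (MulAut.conj γ⁻¹).injective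
      unfold G.Dg at h2 ⊢
      rwa [LocDatum.map_conj_inv_conj] at h2
    have h3 : V'.relIndex W = V.index := by
      unfold Subgroup.relIndex Subgroup.subgroupOf
      rw [hV', Subgroup.comap_map_eq_self_of_injective W.subtype_injective]
    have h4 := Subgroup.relIndex_mul_relIndex _ _ _ hVW.1 hW.1
    rw [h3] at h4
    show V''.relIndex (Dq (l : ℕ)) = W.relIndex (G.Dg l γ) * V.index
    rw [h1, ← h4, mul_comm]
  · rw [zero_mul]

/-- the local datum of `W`. -/
def locDatumG (l : Nat.Primes) (γ : GQ) (W : Subgroup GQ) (hW : IsOpenIn (G.Dg l γ) W) :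
    LocalDatum p ↥W (Lall.sub W) where
  toKummerDatum := gmDatum p W
  n := locN p l γ W
  loc1 := loc1_Gm p l γ W hW

@[simp] theorem locDatumG_toKummerDatum (l : Nat.Primes) (γ : GQ) (W : Subgroup GQ)
    (hW : IsOpenIn (G.Dg l γ) W) : (locDatumG p l γ W hW).toKummerDatum = gmDatum p W := rfl

theorem BT.Dg_one (l : Nat.Primes) : G.Dg l 1 = @Dq (l : ℕ) ⟨l.2⟩ := by
  unfold G.Dg
  ext x
  simp

end Fermat.Agent.S55

end
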