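import Fermat.Agent.S55.B.BT.NormBridge
import Fermat.Agent.S55.L.H2mu

/-!
# S55 / [B] (bt): local classes are symbols; naturality of `ι2`, `cycCl` under restriction
-/

set_option autoImplicit false

noncomputable section

namespace Fermat.Agent.S55

open Places ExtCitation

variable {p : ℕ} [Fact p.Prime]

namespace BT

/-- every class of `H²(W; μ_p)`, `W` open in a decomposition group, is a symbol with a given
surjective character. -/
theorem exists_cycCl_eq (hp2 : p ≠ 2) (l : Nat.Primes) (γ : GQ) (W : Subgroup GQ)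
    (hW : IsOpenIn (G.Dg l γ) W) (χ : ↥W →* Multiplicative (ZMod p))
    (hχ : (Lall.sub W).IsLevel₁ χ) (hs : Function.Surjective χ)
    (y : H2 (Lall.sub W) (rsub (mu p) W)) :
    ∃ b : ↥(H0 (rsub Gm W)), (gmDatum p W).ι2 y = cycCl (Lall.sub W) (rsub Gm W) χ hχ b := by
  have h1 := (locDatumG p l γ W hW).res_eq_zero_of_index_p hp2 χ.ker
    (isOpen_ker_of_isLevel χ hχ) (index_ker_of_surjective χ hs) y
  obtain ⟨b, hb⟩ := (gmDatum p W).exists_cup_kappa_of_res_eq_zero χ hχ hs y h1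
  refine ⟨-b, ?_⟩
  rw [hb, (gmDatum p W).ι2_cup_kappa χ hχ b]
  exact (cycCl_neg (Lall.sub W) (rsub Gm W) χ hχ b).symm

theorem isLevel₁_comp_inclusion {W V : Subgroup GQ} (h : W ≤ V) {Y : Type} {f : ↥V → Y}
    (hf : (Lall.sub V).IsLevel₁ f) : (Lall.sub W).IsLevel₁ (f ∘ Subgroup.inclusion h) := by
  obtain ⟨U, hU, hfU⟩ := hf
  refine ⟨U.comap (Subgroup.inclusion h), (Pair.resLE Lall Gm h).cont U hU, fun g s hs => ?_⟩
  simp only [Function.comp_apply, map_mul]
  exact hfU _ _ hs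

theorem isLevel₁_char_comp_inclusion {W V : Subgroup GQ} (h : W ≤ V)
    {χ : ↥V →* Multiplicative (ZMod p)} (hχ : (Lall.sub V).IsLevel₁ χ) :
    (Lall.sub W).IsLevel₁ (χ.comp (Subgroup.inclusion h)) :=
  isLevel₁_comp_inclusion h hχ

/-- `ι_*` commutes with restriction to an arbitrary subgroup. -/
theorem ι2_resLE {W V : Subgroup GQ} (h : W ≤ V) (x : H2 (Lall.sub V) (rsub (mu p) V)) :
    (gmDatum p W).ι2 ((Pair.resLE Lall (mu p) h).map2 x) =
      (Pair.resLE Lall Gm h).map2 ((gmDatum p V).ι2 x) := by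
  obtain ⟨z, rfl⟩ := H2.mk_surjective _ _ x
  have h1 := (gmDatum p W).ι2_mk ((Pair.resLE Lall (mu p) h).z2 z)
  have h2 := (gmDatum p V).ι2_mk z
  rw [Pair.map2_mk]
  refine h1.trans ?_
  have h3 := congrArg (Pair.resLE Lall Gm h).map2 h2
  refine Eq.trans ?_ h3.symm
  exact (Pair.map2_mk (Pair.resLE Lall Gm h) ⟨(gmDatum p V).ιc z, (gmDatum p V).ιc_mem_Z2 z.2⟩).symm

/-- restriction of a cyclic class. -/
theorem resLE_cycCl {W V : Subgroup GQ} (h : W ≤ V) (χ : ↥V →* Multiplicative (ZMod p))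
    (hχ : (Lall.sub V).IsLevel₁ χ) (b : Qbar) (hb : b ∈ Places.Fix V) (hb0 : b ≠ 0) :
    (Pair.resLE Lall Gm h).map2 (cycCl (Lall.sub V) (rsub Gm V) χ hχ (gmOf V b hb hb0)) =
      cycCl (Lall.sub W) (rsub Gm W) (χ.comp (Subgroup.inclusion h))
        (isLevel₁_char_comp_inclusion h hχ) (gmOf W b (Fix_anti h hb) hb0) := by
  unfold cycCl
  rw [Pair.map2_mk]
  rfl

end BT

end Fermat.Agent.S55

end
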