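import Fermat.Agent.S55.B.BT.LocDatum
import Fermat.Agent.S55.G.BridgeGal
import Fermat.Agent.S55.L.BridgeNorm

/-!
# S55 / [B]: `normSub` versus `IsNormFrom`; the local norm index in the `Fix`-language
TASK S55/B-BT-NormBridge.

`W ≤ GQ`, `χ : ↥W →* Multiplicative (ZMod p)` a surjective level character with kernel
`W1.subgroupOf W`, `W1 ≤ W`.

NOTE.  `localNormIndexFix (p) : G.LocalNormIndexFix p` is ALREADY proved in `L/BridgeNorm.lean`
(same full name `Fermat.Agent.S55.localNormIndexFix`), which this file imports: it is available to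
every file importing this one.  `mem_normSub_iff` is `mem_normSub_iff_isNormFrom` of `Arith/CycFlat.lean`
(`gmOf = toH0` by `rfl`).
-/

set_option autoImplicit false

noncomputable section

namespace Fermat.Agent.S55

open Places ExtCitation

variable {p : ℕ} [Fact p.Prime]

/-- every invariant of `Gm` is a `gmOf`. -/
theorem exists_eq_gmOf (V : Subgroup GQ) (b : ↥(H0 (rsub Gm V))) :
    ∃ (x : Qbar) (hx : x ∈ Places.Fix V) (hx0 : x ≠ 0), b = gmOf V x hx hx0 :=
  ⟨ofH0 b, ofH0_mem b, ofH0_ne_zero b, Subtype.ext (Additive.toMul.injective (Units.ext rfl))⟩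

theorem gmOf_mul (V : Subgroup GQ) (x y : Qbar) (hx : x ∈ Places.Fix V) (hx0 : x ≠ 0)
    (hy : y ∈ Places.Fix V) (hy0 : y ≠ 0) :
    gmOf V (x * y) ((Places.Fix V).mul_mem hx hy) (mul_ne_zero hx0 hy0) =
      gmOf V x hx hx0 + gmOf V y hy hy0 :=
  Subtype.ext (Additive.toMul.injective (Units.ext rfl))

theorem gmOf_pow (V : Subgroup GQ) (x : Qbar) (hx : x ∈ Places.Fix V) (hx0 : x ≠ 0) (n : ℕ) :
    gmOf V (x ^ n) (pow_mem hx n) (pow_ne_zero n hx0) = n • gmOf V x hx hx0 := by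
  apply Subtype.ext
  apply Additive.toMul.injective
  apply Units.ext
  rw [Submodule.coe_smul_of_tower, toMul_nsmul, Units.val_pow_eq_pow_val]
  rfl

theorem mem_normSub_iff (W W1 : Subgroup GQ) (hle : W1 ≤ W)
    (χ : ↥W →* Multiplicative (ZMod p)) (hχ : (Lall.sub W).IsLevel₁ χ)
    (hs : Function.Surjective χ) (hker : χ.ker = W1.subgroupOf W)
    (b : Qbar) (hb : b ∈ Places.Fix W) (hb0 : b ≠ 0) :
    gmOf W b hb hb0 ∈ normSub (Lall.sub W) (rsub Gm W) χ.ker (isOpen_ker_of_isLevel χ hχ) ↔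
      G.IsNormFrom p W W1 b :=
  mem_normSub_iff_isNormFrom p χ hχ hs hker hle (gmOf W b hb hb0)

/-- (F2c) in the `Fix`-language.  [`cycCl_eq_zero_iff` with `(gmDatum p W).h90 χ.ker _`] -/
theorem cycCl_gmOf_eq_zero_iff (W W1 : Subgroup GQ) (hle : W1 ≤ W)
    (χ : ↥W →* Multiplicative (ZMod p)) (hχ : (Lall.sub W).IsLevel₁ χ)
    (hs : Function.Surjective χ) (hker : χ.ker = W1.subgroupOf W)
    (b : Qbar) (hb : b ∈ Places.Fix W) (hb0 : b ≠ 0) :
    cycCl (Lall.sub W) (rsub Gm W) χ hχ (gmOf W b hb hb0) = 0 ↔ G.IsNormFrom p W W1 b := by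
  rw [cycCl_eq_zero_iff (Lall.sub W) (rsub Gm W) χ hχ hs (h90_Gm_sub W χ.ker)]
  exact mem_normSub_iff W W1 hle χ hχ hs hker b hb hb0

end Fermat.Agent.S55

end
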