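import Fermat.Agent.S55.B.BT.Defs
import Fermat.Agent.S55.G.BridgeTools
import Fermat.Agent.S55.Places.Unram

/-!
# S55 / [B] (E2): the field `ℚ_S` and its `S`-units
TASK S55/B-BT-QS.

`InQS S x`: all inertia groups `g I_l g⁻¹`, `l ∉ S`, fix `x`.  `IsUnitOutside S x`: `|x|_{(l,g)} = 1`
for all `l ∉ S`, `g`.
Tools: `isUnramifiedOutside_iff` (Places/Transitive), `LS_isOpen_iff`, `map_root_eq_of_mem_Iq'` (P10,
Places/Unram), `nrmg_def`, `cyclo_finiteDimensional_adjoin`, `cyclo_mem_fixingSubgroup_adjoin`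
(Places/Cyclo) or `IntermediateField.adjoin.finiteDimensional`.
-/

set_option autoImplicit false

noncomputable section

namespace Fermat.Agent.S55

open Places ExtCitation

variable {S : Finset Nat.Primes}

namespace QSAux

theorem nrmg_map' (l : Nat.Primes) (g τ : GQ) (x : Qbar) :
    G.nrmg l g (τ x) = G.nrmg l (τ⁻¹ * g) x := by
  rw [G.nrmg_def, G.nrmg_def, mul_inv_rev, inv_inv, AlgEquiv.mul_apply]

theorem nrmg_inv' (l : Nat.Primes) (g : GQ) (x : Qbar) :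
    G.nrmg l g x⁻¹ = (G.nrmg l g x)⁻¹ := by
  have : Fact (l : ℕ).Prime := ⟨l.2⟩
  rw [G.nrmg_def, G.nrmg_def, map_inv₀, nrm_inv]

theorem nrmg_pow' (l : Nat.Primes) (g : GQ) (x : Qbar) (n : ℕ) :
    G.nrmg l g (x ^ n) = G.nrmg l g x ^ n := by
  have : Fact (l : ℕ).Prime := ⟨l.2⟩
  rw [G.nrmg_def, G.nrmg_def, map_pow, nrm_pow]

/-- `(g h g⁻¹) x = x ↔ h (g⁻¹ x) = g⁻¹ x`. -/
theorem conj_apply_eq_iff (g h : GQ) (x : Qbar) : (g * h * g⁻¹) x = x ↔ h (g⁻¹ x) = g⁻¹ x := by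
  rw [AlgEquiv.mul_apply, AlgEquiv.mul_apply]
  constructor
  · intro H
    have := congrArg (g⁻¹ : GQ) H
    rwa [← AlgEquiv.mul_apply, inv_mul_cancel, AlgEquiv.one_apply] at this
  · intro H
    rw [H, ← AlgEquiv.mul_apply, mul_inv_cancel, AlgEquiv.one_apply]

theorem mem_fixingSubgroup_adjoin {x : Qbar} {g : GQ} (h : g x = x) :
    g ∈ (IntermediateField.adjoin ℚ {x} : NF).fixingSubgroup := by
  have h1 : Subgroup.zpowers g ≤ (IntermediateField.adjoin ℚ {x} : NF).fixingSubgroup := by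
    rw [← IntermediateField.le_iff_le, IntermediateField.adjoin_simple_le_iff,
      IntermediateField.mem_fixedField_iff]
    rintro f ⟨k, rfl⟩
    have hstab : g ∈ MulAction.stabilizer GQ x := h
    exact (MulAction.stabilizer GQ x).zpow_mem hstab k
  exact h1 (Subgroup.mem_zpowers g)

theorem finiteDimensional_adjoin (x : Qbar) :
    FiniteDimensional ℚ (IntermediateField.adjoin ℚ {x} : NF) := by
  have h1 := isAlgClosureQbar
  have halg : Algebra.IsAlgebraic ℚ Qbar := IsAlgClosure.isAlgebraic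
  exact IntermediateField.adjoin.finiteDimensional (halg.isAlgebraic x).isIntegral

end QSAux

open QSAux

/-- `x ∈ ℚ_S` iff `x` is fixed by an `LS`-open subgroup.
[(←) `U ⊇ E.fixingSubgroup`, `E` unramified outside `S`; (→) `E = ℚ(x)`.] -/
theorem inQS_iff (x : Qbar) : InQS S x ↔ ∃ U : Subgroup GQ, (LS S).IsOpen U ∧ ∀ s ∈ U, s x = x := by
  constructor
  · intro hx
    refine ⟨(IntermediateField.adjoin ℚ {x} : NF).fixingSubgroup,
      LS_isOpen_iff.2 ⟨IntermediateField.adjoin ℚ {x}, ?_, le_rfl⟩, fun s hs => ?_⟩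
    · rw [isUnramifiedOutside_iff]
      exact ⟨finiteDimensional_adjoin x, fun l hl g h hh =>
        mem_fixingSubgroup_adjoin (hx l hl g h hh)⟩
    · exact (IntermediateField.mem_fixingSubgroup_iff _ s).1 hs x
        (IntermediateField.mem_adjoin_simple_self ℚ x)
  · rintro ⟨U, hU, hUx⟩ l hl g h hh
    obtain ⟨E, hE, hEU⟩ := LS_isOpen_iff.1 hU
    exact hUx _ (hEU (((isUnramifiedOutside_iff E S).1 hE).2 l hl g h hh))

theorem InQS.of_mem_Fix {U : Subgroup GQ} (hU : (LS S).IsOpen U) {x : Qbar}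
    (hx : x ∈ Places.Fix U) : InQS S x :=
  (inQS_iff x).2 ⟨U, hU, mem_Fix_iff.1 hx⟩

theorem InQS.one : InQS S 1 := fun _ _ _ _ _ => map_one _

theorem InQS.mul {x y : Qbar} (hx : InQS S x) (hy : InQS S y) : InQS S (x * y) :=
  fun l hl g h hh => by rw [map_mul, hx l hl g h hh, hy l hl g h hh]

theorem InQS.inv {x : Qbar} (hx : InQS S x) : InQS S x⁻¹ :=
  fun l hl g h hh => by rw [map_inv₀, hx l hl g h hh]

theorem InQS.div {x y : Qbar} (hx : InQS S x) (hy : InQS S y) : InQS S (x / y) :=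
  fun l hl g h hh => by rw [map_div₀, hx l hl g h hh, hy l hl g h hh]

theorem InQS.pow {x : Qbar} (hx : InQS S x) (n : ℕ) : InQS S (x ^ n) :=
  fun l hl g h hh => by rw [map_pow, hx l hl g h hh]

theorem InQS.prod {ι : Type} (s : Finset ι) (f : ι → Qbar) (h : ∀ i ∈ s, InQS S (f i)) :
    InQS S (∏ i ∈ s, f i) :=
  fun l hl g h' hh => by
    rw [map_prod]
    exact Finset.prod_congr rfl fun i hi => h i hi l hl g h' hh

/-- `ℚ_S` is Galois over `ℚ`.  [`(g h g⁻¹) (τ x) = τ ((τ⁻¹ g) h (τ⁻¹ g)⁻¹ x)`] -/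
theorem InQS.map {x : Qbar} (hx : InQS S x) (τ : GQ) : InQS S (τ x) := by
  intro l hl g h hh
  have h1 := hx l hl (τ⁻¹ * g) h hh
  have e : g * h * g⁻¹ * τ = τ * (τ⁻¹ * g * h * (τ⁻¹ * g)⁻¹) := by group
  rw [← AlgEquiv.mul_apply, e, AlgEquiv.mul_apply, h1]

/-- (P10) roots of elements of `ℚ_S` whose valuations outside `S` are divisible by `n` (all prime
divisors of `n` in `S`) are in `ℚ_S`.
[`(g h g⁻¹) β = β ⇔ h (g⁻¹ β) = g⁻¹ β`; `map_root_eq_of_mem_Iq'` for `u' = g⁻¹ u`, `c' = g⁻¹ c`,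
`β' = g⁻¹ β`; `nrmg l g x = nrm l (g⁻¹ x)` by definition.] -/
theorem InQS.root {n : ℕ} (hn : ∀ l : Nat.Primes, l ∉ S → Nat.Coprime n (l : ℕ)) {u β : Qbar}
    (hu : InQS S u) (hβ : β ^ n = u)
    (hval : ∀ l : Nat.Primes, l ∉ S → ∀ g : GQ, ∃ c : Qbar, c ≠ 0 ∧ InQS S c ∧
      G.nrmg l g u = G.nrmg l g c ^ n) : InQS S β := by
  intro l hl g h hh
  have : Fact (l : ℕ).Prime := ⟨l.2⟩
  obtain ⟨c, hc0, hc, hval'⟩ := hval l hl g
  rw [conj_apply_eq_iff]
  refine map_root_eq_of_mem_Iq' (q := (l : ℕ)) (hn l hl) (u := g⁻¹ u) (c := g⁻¹ c) ?_ hval' ?_ hh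
    ((conj_apply_eq_iff g h u).1 (hu l hl g h hh)) ((conj_apply_eq_iff g h c).1 (hc l hl g h hh))
  · rw [Ne, map_eq_zero_iff _ (g⁻¹ : GQ).injective]
    exact hc0
  · rw [← map_pow, hβ]

/-- roots of `S`-units. -/
theorem InQS.root_of_unit {n : ℕ} (hn : ∀ l : Nat.Primes, l ∉ S → Nat.Coprime n (l : ℕ))
    {u β : Qbar} (hu : InQS S u) (hu1 : IsUnitOutside S u) (hβ : β ^ n = u) : InQS S β :=
  InQS.root hn hu hβ fun l hl g =>
    ⟨1, one_ne_zero, InQS.one, by rw [hu1 l hl g, G.nrmg_one, one_pow]⟩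

theorem IsUnitOutside.one : IsUnitOutside S 1 := fun l _ g => G.nrmg_one l g

theorem IsUnitOutside.mul {x y : Qbar} (hx : IsUnitOutside S x) (hy : IsUnitOutside S y) :
    IsUnitOutside S (x * y) :=
  fun l hl g => by rw [G.nrmg_mul, hx l hl g, hy l hl g, one_mul]

theorem IsUnitOutside.inv {x : Qbar} (hx : IsUnitOutside S x) : IsUnitOutside S x⁻¹ :=
  fun l hl g => by rw [nrmg_inv', hx l hl g, inv_one]

/-- [`nrmg l g (τ x) = nrmg l (τ⁻¹ g) x`] -/
theorem IsUnitOutside.map {x : Qbar} (hx : IsUnitOutside S x) (τ : GQ) :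
    IsUnitOutside S (τ x) :=
  fun l hl g => by rw [nrmg_map', hx l hl]

theorem IsUnitOutside.of_pow {x : Qbar} {n : ℕ} (hn : n ≠ 0) (hx : IsUnitOutside S (x ^ n)) :
    IsUnitOutside S x := by
  intro l hl g
  have h := hx l hl g
  rw [nrmg_pow'] at h
  exact (pow_eq_one_iff_of_nonneg (G.nrmg_nonneg l g x) hn).1 h

/-- roots of unity are units everywhere. -/
theorem IsUnitOutside.of_pow_eq_one {x : Qbar} {n : ℕ} (hn : n ≠ 0) (hx : x ^ n = 1) :
    IsUnitOutside S x :=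
  IsUnitOutside.of_pow hn (hx ▸ IsUnitOutside.one)

/-- `nrmg l g (τ x) = nrmg l (τ⁻¹ * g) x`. -/
theorem nrmg_map (l : Nat.Primes) (g τ : GQ) (x : Qbar) :
    G.nrmg l g (τ x) = G.nrmg l (τ⁻¹ * g) x := nrmg_map' l g τ x

theorem nrmg_pow (l : Nat.Primes) (g : GQ) (x : Qbar) (n : ℕ) :
    G.nrmg l g (x ^ n) = G.nrmg l g x ^ n := nrmg_pow' l g x n

theorem nrmg_prod {ι : Type} (l : Nat.Primes) (g : GQ) (s : Finset ι) (f : ι → Qbar) :
    G.nrmg l g (∏ i ∈ s, f i) = ∏ i ∈ s, G.nrmg l g (f i) := by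
  classical
  induction s using Finset.induction_on with
  | empty => simp [G.nrmg_one]
  | insert a s ha ih => rw [Finset.prod_insert ha, Finset.prod_insert ha, G.nrmg_mul, ih]

theorem nrmg_div (l : Nat.Primes) (g : GQ) (x y : Qbar) :
    G.nrmg l g (x / y) = G.nrmg l g x / G.nrmg l g y := by
  rw [div_eq_mul_inv, G.nrmg_mul, nrmg_inv', div_eq_mul_inv]

/-! ### the module of `S`-units of `ℚ_S` inside the smooth part of `Gm` restricted to `N` -/

variable (S)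

/-- membership in the `(LS S).sub N`-smooth part of `Gm`, for an `LS`-open `N`. -/
theorem mem_smoothPart_Gm_iff {N : Subgroup GQ} (hN : (LS S).IsOpen N) (x : Additive Qbarˣ) :
    x ∈ smoothPart ((LS S).sub N) (rsub Gm N) ↔ InQS S ((x.toMul : Qbarˣ) : Qbar) := by
  rw [inQS_iff, mem_smoothPart]
  constructor
  · rintro ⟨U, ⟨U0, hU0, hle⟩, h⟩
    refine ⟨U0 ⊓ N, (LS S).isOpen_inf hU0 hN, fun s hs => ?_⟩
    have h1 := h ⟨s, hs.2⟩ (hle (show s ∈ U0 from hs.1))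
    have h2 : Gm s x = x := h1
    rw [← Gm_apply, h2]
  · rintro ⟨U0, hU0, h⟩
    refine ⟨U0.comap N.subtype, ⟨U0, hU0, le_rfl⟩, fun s hs => ?_⟩
    show Gm (s : GQ) x = x
    apply Additive.toMul.injective
    apply Units.ext
    rw [Gm_apply]
    exact h _ hs

/-- the `S`-units of `ℚ_S`. -/
def unitsS (N : Subgroup GQ) : AddSubgroup ↥(smoothPart ((LS S).sub N) (rsub Gm N)) where
  carrier := {x | IsUnitOutside S (((x : Additive Qbarˣ).toMul : Qbarˣ) : Qbar)}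
  add_mem' := by
    intro x y hx hy
    exact IsUnitOutside.mul hx hy
  zero_mem' := IsUnitOutside.one
  neg_mem' := by
    intro x hx
    have := IsUnitOutside.inv hx
    simpa using this

theorem mem_unitsS {N : Subgroup GQ} (x : ↥(smoothPart ((LS S).sub N) (rsub Gm N))) :
    x ∈ unitsS S N ↔ IsUnitOutside S (((x : Additive Qbarˣ).toMul : Qbarˣ) : Qbar) := Iff.rfl

theorem unitsS_stable (N : Subgroup GQ) (g : ↥N) (x : ↥(smoothPart ((LS S).sub N) (rsub Gm N)))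
    (hx : x ∈ unitsS S N) : smRep ((LS S).sub N) (rsub Gm N) g x ∈ unitsS S N :=
  IsUnitOutside.map ((mem_unitsS S x).1 hx) (g : GQ)

/-- `S`-units of `ℚ_S` are `p`-divisible in `ℚ_S^×` when `p ∈ S`. -/
theorem unitsS_div {p : ℕ} [Fact p.Prime] (hpS : pPrime p ∈ S) {N : Subgroup GQ}
    (hN : (LS S).IsOpen N) (x : ↥(smoothPart ((LS S).sub N) (rsub Gm N))) (hx : x ∈ unitsS S N) :
    ∃ s : ↥(smoothPart ((LS S).sub N) (rsub Gm N)), p • s = x := by
  have hp : p.Prime := Fact.out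
  have halg : IsAlgClosed Qbar := inferInstance
  obtain ⟨β, hβ⟩ := IsAlgClosed.exists_pow_nat_eq
    ((((x : Additive Qbarˣ).toMul : Qbarˣ) : Qbar)) hp.pos
  have hβ0 : β ≠ 0 := by
    rintro rfl
    rw [zero_pow hp.ne_zero] at hβ
    exact (Units.ne_zero _) hβ.symm
  have hn : ∀ l : Nat.Primes, l ∉ S → Nat.Coprime p (l : ℕ) := by
    intro l hl
    rw [Nat.coprime_primes hp l.2]
    rintro rfl
    exact hl hpS
  have hβQ : InQS S β :=
    InQS.root_of_unit hn ((mem_smoothPart_Gm_iff S hN _).1 x.2) ((mem_unitsS S x).1 hx) hβ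
  refine ⟨⟨Additive.ofMul (Units.mk0 β hβ0), (mem_smoothPart_Gm_iff S hN _).2 hβQ⟩, ?_⟩
  apply Subtype.ext
  apply Additive.toMul.injective
  apply Units.ext
  exact hβ

end Fermat.Agent.S55

end
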